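/-
Lib/Chebotarev, Part A (the `L`-series of `χ ∘ N` over an arbitrary number field has a limit at
`s = 1+`): definitions.  Owner: helper32.

NOTATION.  `E` number field, `n = [E:ℚ]`, `V = mixedSpace E` (sup norm), `ι a = mixedEmbedding E a`,
`N = mixedEmbedding.norm : V → ℝ` (`N (ι a) = |N_{E/ℚ} a|`), `U = (𝓞 E)ˣ` acting on `V`.
-/
import Fermat.Agent.Lib.Chebotarev.Defs

set_option autoImplicit false

namespace Fermat.Agent.CH

open NumberField NumberField.mixedEmbedding NumberField.InfinitePlace IsDedekindDomain Filter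
  Topology
open scoped NumberField nonZeroDivisors Classical
open Fermat.Agent.S14.AN (nrm pnrm toIdl)

/-- `f` has a (finite) limit at `1+`. -/
def HasLim (f : ℝ → ℂ) : Prop := ∃ l : ℂ, Tendsto f (𝓝[>] 1) (𝓝 l)

variable (E : Type) [Field E] [NumberField E]

/-- A smooth substitute for the indicator function of a fundamental domain of `V^×` modulo units. -/
structure IsWeight (w : mixedSpace E → ℝ) : Prop where
  nonneg : ∀ x, 0 ≤ w x
  le_one : ∀ x, w x ≤ 1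
  hasSum : ∀ x, mixedEmbedding.norm x ≠ 0 → HasSum (fun u : (𝓞 E)ˣ => w (u • x)) 1
  supp : ∃ c : ℝ, 0 < c ∧ ∀ x, w x ≠ 0 → ∀ v : InfinitePlace E, c * ‖x‖ ≤ normAtPlace v x
  lip : ∃ C : ℝ, ∀ x y, |w x - w y| * ‖x‖ ≤ C * ‖x - y‖

/-- `1` if the product of the real coordinates is positive, `ε` otherwise. -/
noncomputable def sgnChar (ε : ℂ) (x : mixedSpace E) : ℂ :=
  if 0 < ∏ v : {v : InfinitePlace E // IsReal v}, x.1 v then 1 else ε

/-- `h_s(x) = w(x) κ(x) N(x)^(-s)`. -/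
noncomputable def hfun (w : mixedSpace E → ℝ) (ε : ℂ) (s : ℝ) (x : mixedSpace E) : ℂ :=
  (w x : ℂ) * sgnChar E ε x * ((mixedEmbedding.norm x ^ (-s) : ℝ) : ℂ)

/-- `ι : 𝓞 E → V`. -/
noncomputable def iot (a : 𝓞 E) : mixedSpace E := mixedEmbedding E (a : E)

variable {m : ℕ}

/-- `χ(N I)` for a nonzero ideal `I`. -/
noncomputable def chiN (χ : DirichletCharacter ℂ m) (I : (Ideal (𝓞 E))⁰) : ℂ :=
  χ ((Ideal.absNorm (I : Ideal (𝓞 E)) : ℕ) : ZMod m)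

/-- `L(s, χ ∘ N) = ∑_I χ(N I) N I^(-s)`. -/
noncomputable def Lf (χ : DirichletCharacter ℂ m) (s : ℝ) : ℂ :=
  ∑' I : (Ideal (𝓞 E))⁰, chiN E χ I * (nrm E s I : ℂ)

/-- `χ(N_{E/ℚ} a)` (the norm with its sign) for `a ∈ 𝓞 E`. -/
noncomputable def chiE (χ : DirichletCharacter ℂ m) (a : 𝓞 E) : ℂ :=
  χ ((Algebra.norm ℤ a : ℤ) : ZMod m)

/-- `P_I(s) = ∑_{a ∈ I} χ(N a) h_s(ι a)`. -/
noncomputable def Psum (χ : DirichletCharacter ℂ m) (w : mixedSpace E → ℝ) (I : Ideal (𝓞 E))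
    (s : ℝ) : ℂ :=
  ∑' a : 𝓞 E, if a ∈ I then chiE E χ a * hfun E w (χ (-1)) s (iot E a) else 0

/-- the part of `L(s, χ ∘ N)` coming from the ideals in the class `c` which are divisible by `𝔟`. -/
noncomputable def Lcl (χ : DirichletCharacter ℂ m) (c : ClassGroup (𝓞 E)) (𝔟 : Ideal (𝓞 E))
    (s : ℝ) : ℂ :=
  ∑' I : (Ideal (𝓞 E))⁰,
    if ClassGroup.mk0 I = c ∧ 𝔟 ∣ (I : Ideal (𝓞 E)) then chiN E χ I * (nrm E s I : ℂ) else 0

/-- the sum over the principal ideals divisible by `J`. -/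
noncomputable def Lpr (χ : DirichletCharacter ℂ m) (J : Ideal (𝓞 E)) (s : ℝ) : ℂ :=
  ∑' I : (Ideal (𝓞 E))⁰,
    if (I : Ideal (𝓞 E)).IsPrincipal ∧ J ∣ (I : Ideal (𝓞 E)) then chiN E χ I * (nrm E s I : ℂ)
    else 0

end Fermat.Agent.CH
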