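/-
Lib/Chebotarev, Part A: norms of elements: absolute value, sign, congruences
(task S48/CH-A-Sign).
-/
import Fermat.Agent.Lib.Chebotarev.A.Defs

set_option autoImplicit false

namespace Fermat.Agent.CH

open NumberField NumberField.mixedEmbedding NumberField.InfinitePlace
open scoped NumberField nonZeroDivisors Classical

variable (E : Type) [Field E] [NumberField E] {m : ℕ}

/-- the principal ideal generated by a nonzero element, as a nonzero ideal. -/
noncomputable def spanI (a : 𝓞 E) (ha : a ≠ 0) : (Ideal (𝓞 E))⁰ :=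
  ⟨Ideal.span {a}, mem_nonZeroDivisors_iff_ne_zero.mpr (by simpa using ha)⟩

/-- PROOF. `mixedEmbedding.norm_eq_norm`, `Ideal.absNorm_span_singleton`,
`Algebra.coe_norm_int` / `RingOfIntegers.coe_norm`. -/
theorem norm_iot (a : 𝓞 E) :
    mixedEmbedding.norm (iot E a) = (Ideal.absNorm (Ideal.span {a}) : ℝ) := by
  rw [iot, mixedEmbedding.norm_eq_norm, Ideal.absNorm_span_singleton, ← Algebra.coe_norm_int,
    Nat.cast_natAbs]
  push_cast
  rfl

/-- the product of the embeddings above a given infinite place -/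
theorem Sign_prod_fiber (x : E) (w : InfinitePlace E) :
    ∏ φ ∈ (Finset.univ.filter fun φ : E →+* ℂ => mk φ = w), φ x
      = if h : IsReal w then ((embedding_of_isReal h x : ℝ) : ℂ) else (((w x) ^ 2 : ℝ) : ℂ) := by
  have hfil : (Finset.univ.filter fun φ : E →+* ℂ => mk φ = w)
      = {w.embedding} ∪ {ComplexEmbedding.conjugate w.embedding} := by
    ext φ
    simp only [Finset.mem_filter, Finset.mem_univ, true_and, Finset.mem_union,
      Finset.mem_singleton]
    conv_lhs => rw [← mk_embedding w, mk_eq_iff]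
    constructor
    · rintro (h | h)
      · exact Or.inl h
      · right
        rw [← h, ComplexEmbedding.conjugate, ComplexEmbedding.conjugate, star_star]
    · rintro (h | h)
      · exact Or.inl h
      · right
        rw [h, ComplexEmbedding.conjugate, ComplexEmbedding.conjugate, star_star]
  rw [hfil]
  split_ifs with hw
  · rw [ComplexEmbedding.isReal_iff.mp (isReal_iff.mp hw), Finset.union_idempotent,
      Finset.prod_singleton, embedding_of_isReal_apply]
  · have hne : w.embedding ≠ ComplexEmbedding.conjugate w.embedding := by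
      rwa [Ne, eq_comm, ← ComplexEmbedding.isReal_iff, ← isReal_iff]
    rw [← Finset.insert_eq, Finset.prod_pair hne, ComplexEmbedding.conjugate_coe_eq,
      Complex.mul_conj, Complex.normSq_eq_norm_sq, norm_embedding_eq]

/-- the real factor at the place `w` -/
noncomputable def Sign_fac (x : E) (w : InfinitePlace E) : ℝ :=
  if h : IsReal w then embedding_of_isReal h x else (w x) ^ 2

theorem Sign_norm_eq_prod (x : E) :
    ((Algebra.norm ℚ x : ℚ) : ℝ) = ∏ w : InfinitePlace E, Sign_fac E x w := by
  have h1 := Algebra.norm_eq_prod_embeddings ℚ ℂ x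
  rw [← Fintype.prod_equiv (RingHom.equivRatAlgHom E ℂ) (fun f : E →+* ℂ => f x)
      (fun φ => φ x) fun _ => by simp [RingHom.equivRatAlgHom_apply]] at h1
  rw [← Finset.prod_fiberwise Finset.univ mk (fun φ : E →+* ℂ => φ x)] at h1
  simp_rw [Sign_prod_fiber] at h1
  apply Complex.ofReal_injective
  rw [Complex.ofReal_prod, Complex.ofReal_ratCast, ← eq_ratCast (algebraMap ℚ ℂ), h1]
  refine Finset.prod_congr rfl fun w _ => ?_
  unfold Sign_fac
  split_ifs <;> rfl

theorem Sign_norm_eq_mul (x : E) :
    ((Algebra.norm ℚ x : ℚ) : ℝ) =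
      (∏ v : {v : InfinitePlace E // IsReal v}, (mixedEmbedding E x).1 v) *
        ∏ w : InfinitePlace E, (if IsReal w then 1 else (w x) ^ 2) := by
  rw [Sign_norm_eq_prod]
  have h1 : ∀ w : InfinitePlace E, Sign_fac E x w
      = (if h : IsReal w then embedding_of_isReal h x else 1) *
        (if IsReal w then 1 else (w x) ^ 2) := by
    intro w
    unfold Sign_fac
    split_ifs <;> simp
  simp_rw [h1]
  rw [Finset.prod_mul_distrib]
  congr 1
  have h2 : ∏ v : {v : InfinitePlace E // IsReal v}, (mixedEmbedding E x).1 v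
      = ∏ v : {v : InfinitePlace E // IsReal v},
        (fun w : InfinitePlace E => if h : IsReal w then embedding_of_isReal h x else 1) v := by
    refine Finset.prod_congr rfl fun v _ => ?_
    rw [mixedEmbedding_apply_isReal]
    simp only [dif_pos v.2]
  rw [h2, ← Finset.prod_subtype (Finset.univ.filter fun w : InfinitePlace E => IsReal w) (by simp)
    (fun w => if h : IsReal w then embedding_of_isReal h x else 1), Finset.prod_filter]
  refine Finset.prod_congr rfl fun w _ => ?_
  split_ifs <;> rfl

/-- the sign of the norm.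
PROOF. `Algebra.norm_eq_prod_embeddings` (into `ℂ`): `N a = ∏_{φ : E →+* ℂ} φ a`; group the embeddings
by infinite places (`NumberField.InfinitePlace.prod_eq_abs_norm` is proved in this way: see its proof,
`Finset.prod_fiberwise`, `card_filter_mk_eq`): a real place contributes the real number `x.1 v`
(`mixedEmbedding_apply_isReal`/`embedding_of_isReal`), a complex place contributes
`φ a * conj (φ a) = ‖φ a‖^2 > 0`. -/
theorem norm_pos_iff (a : 𝓞 E) (ha : a ≠ 0) :
    0 < Algebra.norm ℤ a ↔ 0 < ∏ v : {v : InfinitePlace E // IsReal v}, (iot E a).1 v := by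
  have h1 : (0 : ℝ) < ∏ w : InfinitePlace E, (if IsReal w then 1 else (w (a : E)) ^ 2) := by
    refine Finset.prod_pos fun w _ => ?_
    split_ifs
    · exact one_pos
    · have : w (a : E) ≠ 0 := by
        rw [Ne, map_eq_zero]
        exact_mod_cast ha
      positivity
  have h2 := Sign_norm_eq_mul E (a : E)
  rw [← Algebra.coe_norm_int] at h2
  have h3 : 0 < Algebra.norm ℤ a ↔ (0 : ℝ) < (((Algebra.norm ℤ a : ℤ) : ℚ) : ℝ) := by
    norm_cast
  rw [h3, h2, iot]
  exact mul_pos_iff_of_pos_right h1

/-- PROOF. `N(span a) = |N a|` (`Ideal.absNorm_span_singleton`, `Int.natAbs`); if `N a > 0` both sides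
are `χ(N a)`; if `N a < 0` then `|N a| = (-1) * N a` and `χ` is multiplicative. -/
theorem chiN_spanI (χ : DirichletCharacter ℂ m) (a : 𝓞 E) (ha : a ≠ 0) :
    chiN E χ (spanI E a ha) = chiE E χ a * sgnChar E (χ (-1)) (iot E a) := by
  have hn : Algebra.norm ℤ a ≠ 0 := by
    rw [Ne, Algebra.norm_eq_zero_iff]
    exact ha
  unfold chiN chiE sgnChar spanI
  simp only [Ideal.absNorm_span_singleton]
  split_ifs with h'
  · have h := (norm_pos_iff E a ha).mpr h'
    rw [mul_one]
    congr 1
    have : ((Algebra.norm ℤ a).natAbs : ℤ) = Algebra.norm ℤ a := Int.natAbs_of_nonneg h.le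
    rw [← Int.cast_natCast, this]
  · have h := fun h0 => h' ((norm_pos_iff E a ha).mp h0)
    rw [← map_mul]
    congr 1
    have : ((Algebra.norm ℤ a).natAbs : ℤ) = - Algebra.norm ℤ a :=
      Int.ofNat_natAbs_of_nonpos (not_lt.mp h)
    rw [← Int.cast_natCast, this]
    push_cast
    ring

/-- PROOF. `N(a + m b) ≡ N a mod m`: e.g. `Algebra.norm ℤ x = det (leftMulMatrix basis x)`
(`Algebra.norm_eq_matrix_det`), apply `Int.castRingHom (ZMod m)` (`RingHom.map_det`): the matrices of
`a + m b` and `a` have the same image. -/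
theorem chiE_add_of_mem (χ : DirichletCharacter ℂ m) (a v : 𝓞 E)
    (hv : v ∈ Ideal.span {(m : 𝓞 E)}) : chiE E χ (a + v) = chiE E χ a := by
  obtain ⟨b, rfl⟩ := Ideal.mem_span_singleton'.mp hv
  unfold chiE
  congr 1
  let B := Module.Free.chooseBasis ℤ (𝓞 E)
  rw [Algebra.norm_eq_matrix_det B, Algebra.norm_eq_matrix_det B, ← eq_intCast (Int.castRingHom (ZMod m)),
    ← eq_intCast (Int.castRingHom (ZMod m)), RingHom.map_det, RingHom.map_det]
  congr 1
  rw [map_add, map_add, map_mul, map_mul, map_natCast, map_natCast]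
  simp

theorem norm_chiE_le (χ : DirichletCharacter ℂ m) (a : 𝓞 E) : ‖chiE E χ a‖ ≤ 1 :=
  DirichletCharacter.norm_le_one χ _

theorem norm_chiN_le (χ : DirichletCharacter ℂ m) (I : (Ideal (𝓞 E))⁰) : ‖chiN E χ I‖ ≤ 1 :=
  DirichletCharacter.norm_le_one χ _

theorem chiN_mul (χ : DirichletCharacter ℂ m) (I J : (Ideal (𝓞 E))⁰) :
    chiN E χ (I * J) = chiN E χ I * chiN E χ J := by
  simp [chiN]

end Fermat.Agent.CH
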