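/-
Lib/Chebotarev, Part A: decomposition of the `L`-series according to ideal classes
(tasks S48/CH-A-ClassRep, S48/CH-A-Classes).
-/
import Fermat.Agent.Lib.Chebotarev.A.Sign

set_option autoImplicit false

namespace Fermat.Agent.CH

open NumberField
open scoped NumberField nonZeroDivisors Classical
open Fermat.Agent.S14.AN (nrm)

variable (E : Type) [Field E] [NumberField E] {m : ℕ}

/-- an ideal prime to `m` has norm prime to `m` -/
theorem Classes_coprime_absNorm (K : Ideal (𝓞 E)) (hK : K ≠ ⊥) (m : ℕ)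
    (h : K ⊔ Ideal.span {(m : 𝓞 E)} = ⊤) : (Ideal.absNorm K).Coprime m := by
  have hfin : Finite (𝓞 E ⧸ K) := Ideal.finiteQuotientOfFreeOfNeBot K hK
  refine Nat.coprime_of_dvd ?_
  intro q hq hqn hqm
  have := Fact.mk hq
  rw [Ideal.absNorm_apply, Submodule.cardQuot_apply] at hqn
  obtain ⟨x, hx⟩ := exists_prime_addOrderOf_dvd_card' q hqn
  have h1 : (1 : 𝓞 E) ∈ K ⊔ Ideal.span {(m : 𝓞 E)} := by rw [h]; trivial
  obtain ⟨k, hk, y, hy, hky⟩ := Submodule.mem_sup.mp h1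
  obtain ⟨u, rfl⟩ := Ideal.mem_span_singleton'.mp hy
  have h2 : (Ideal.Quotient.mk K u) * (m : 𝓞 E ⧸ K) = 1 := by
    rw [← map_natCast (Ideal.Quotient.mk K), ← map_mul, ← map_one (Ideal.Quotient.mk K), ← hky,
      map_add, Ideal.Quotient.eq_zero_iff_mem.mpr hk, zero_add]
  have h3 : (m : 𝓞 E ⧸ K) * x = 0 := by
    obtain ⟨t, rfl⟩ := hqm
    have h4 : q • x = 0 := by rw [← hx]; exact addOrderOf_nsmul_eq_zero x
    rw [Nat.cast_mul, mul_comm (q : 𝓞 E ⧸ K), mul_assoc, ← nsmul_eq_mul q, h4, mul_zero]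
  have h5 : x = 0 := by
    calc x = (Ideal.Quotient.mk K u * (m : 𝓞 E ⧸ K)) * x := by rw [h2, one_mul]
      _ = 0 := by rw [mul_assoc, h3, mul_zero]
  rw [h5, addOrderOf_zero] at hx
  exact hq.one_lt.ne hx

/-- (task CH-A-ClassRep) every ideal class contains an integral ideal prime to `m`.
PROOF. Let `I₀` be an integral ideal in the class `c⁻¹` (`ClassGroup.mk0_surjective`).  There is
`a ∈ I₀` with `a ∉ P I₀` for every prime `P ∣ m` (finitely many primes; CRT, or: Mathlib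
`Ideal.exists_mul_add_mem_pow_succ`-type lemmas, or `IsDedekindDomain.exists_sup_span_eq`-type lemma:
for `I₀ ⊇ m I₀` nonzero there is `a` with `I₀ = m I₀ + (a)`).  Then `(a) = I₀ J` with `J + (m) = 1`,
and `mk0 J = c`.  `J + (m) = 1` implies `N J` prime to `m` (if a prime `p ∣ m` divides `N J` then some
prime `P ∣ J` lies over `p`, so `P ⊇ J + (m)`). -/
theorem exists_coprime_rep [NeZero m] (c : ClassGroup (𝓞 E)) :
    ∃ J : (Ideal (𝓞 E))⁰, ClassGroup.mk0 J = c ∧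
      (Ideal.absNorm (J : Ideal (𝓞 E))).Coprime m := by
  obtain ⟨I₀, hI₀⟩ := ClassGroup.mk0_surjective c⁻¹
  have hI0 : (I₀ : Ideal (𝓞 E)) ≠ 0 := nonZeroDivisors.coe_ne_zero I₀
  have hm0 : Ideal.span {(m : 𝓞 E)} ≠ 0 := by
    rw [Ideal.zero_eq_bot, Ne, Ideal.span_singleton_eq_bot]
    exact Nat.cast_ne_zero.mpr (NeZero.ne m)
  have hIm : (I₀ : Ideal (𝓞 E)) * Ideal.span {(m : 𝓞 E)} ≠ 0 := mul_ne_zero hI0 hm0
  obtain ⟨a, ha0, ha⟩ : ∃ a : 𝓞 E, a ≠ 0 ∧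
      (I₀ : Ideal (𝓞 E)) * Ideal.span {(m : 𝓞 E)} ⊔ Ideal.span {a} = I₀ := by
    obtain ⟨a, ha⟩ := IsDedekindDomain.exists_sup_span_eq
      (Ideal.mul_le_left : (I₀ : Ideal (𝓞 E)) * Ideal.span {(m : 𝓞 E)} ≤ I₀) hIm
    by_cases h0 : a = 0
    · subst h0
      obtain ⟨b, hb, hb0⟩ := Submodule.exists_mem_ne_zero_of_ne_bot hIm
      refine ⟨b, hb0, ?_⟩
      rw [sup_eq_left.mpr ((Ideal.span_singleton_le_iff_mem _).mpr hb)]
      simpa using ha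
    · exact ⟨a, h0, ha⟩
  obtain ⟨K, hK⟩ : (I₀ : Ideal (𝓞 E)) ∣ Ideal.span {a} := by
    rw [Ideal.dvd_iff_le]
    conv_rhs => rw [← ha]
    exact le_sup_right
  have hK0 : K ≠ 0 := by
    rintro rfl
    rw [mul_zero, Ideal.zero_eq_bot, Ideal.span_singleton_eq_bot] at hK
    exact ha0 hK
  have hsup : K ⊔ Ideal.span {(m : 𝓞 E)} = ⊤ := by
    have h1 : (I₀ : Ideal (𝓞 E)) * (Ideal.span {(m : 𝓞 E)} ⊔ K) = (I₀ : Ideal (𝓞 E)) * 1 := by
      rw [Ideal.mul_sup, ← hK, ha, mul_one]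
    have h2 := mul_left_cancel₀ hI0 h1
    rw [sup_comm, h2, Ideal.one_eq_top]
  refine ⟨⟨K, mem_nonZeroDivisors_of_ne_zero hK0⟩, ?_, Classes_coprime_absNorm E K hK0 m hsup⟩
  have h3 : ClassGroup.mk0 I₀ * ClassGroup.mk0 ⟨K, mem_nonZeroDivisors_of_ne_zero hK0⟩ = 1 := by
    rw [← map_mul, ClassGroup.mk0_eq_one_iff]
    refine ⟨a, ?_⟩
    change (I₀ : Ideal (𝓞 E)) * K = _
    rw [← hK]
  rw [hI₀] at h3
  exact (inv_mul_eq_one.mp h3).symm

/-- (task CH-A-Classes) summability of the terms of `Lf`. -/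
theorem summable_Lf_term (χ : DirichletCharacter ℂ m) {s : ℝ} (hs : 1 < s) :
    Summable fun I : (Ideal (𝓞 E))⁰ => chiN E χ I * (nrm E s I : ℂ) := by
  sorry

/-- (task CH-A-Classes) PROOF. `∑_c [mk0 I = c ∧ 𝔟 ∣ I] = [𝔟 ∣ I]` (finite sum over the class group,
exchange with `tsum`: `Summable.tsum_finsetSum`); the ideals divisible by `𝔟` are the `𝔟 I'`
(`I' ↦ 𝔟 I'` injective, `Function.Injective.tsum_eq`), `chiN_mul`, `nrm` multiplicative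
(`Fermat.Agent.S14.AN.Sieve`). -/
theorem sum_Lcl (χ : DirichletCharacter ℂ m) (𝔟 : (Ideal (𝓞 E))⁰) {s : ℝ} (hs : 1 < s) :
    ∑ c : ClassGroup (𝓞 E), Lcl E χ c (𝔟 : Ideal (𝓞 E)) s =
      chiN E χ 𝔟 * (nrm E s 𝔟 : ℂ) * Lf E χ s := by
  sorry

/-- (task CH-A-Classes) PROOF. `I ↦ I J` is a bijection from `{I : mk0 I = c, 𝔟 ∣ I}` onto
`{I' principal, 𝔟 J ∣ I'}` (`ClassGroup.mk0_eq_one_iff`, `map_mul`; if `𝔟 J ∣ I'` then `I' = J I` and
`𝔟 ∣ I` by cancellation).  `chiN_mul`, `nrm` multiplicative, `tsum_mul_left`,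
`Function.Injective.tsum_eq`. -/
theorem Lcl_mul (χ : DirichletCharacter ℂ m) (c : ClassGroup (𝓞 E)) (𝔟 J : (Ideal (𝓞 E))⁰)
    (hJ : ClassGroup.mk0 J = c⁻¹) (s : ℝ) :
    chiN E χ J * (nrm E s J : ℂ) * Lcl E χ c (𝔟 : Ideal (𝓞 E)) s =
      Lpr E χ ((𝔟 : Ideal (𝓞 E)) * (J : Ideal (𝓞 E))) s := by
  sorry

end Fermat.Agent.CH
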