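/-
Lib/Chebotarev, Part A: representatives of `I / 𝔟 I` inside `(μ) ∩ I` (task S48/CH-A-Reps).
Mathlib only.
-/
import Mathlib

set_option autoImplicit false

namespace Fermat.Agent.CH

open scoped Classical

section

variable {S : Type*} [CommRing S] [IsDedekindDomain S] [Module.Free ℤ S]
  [Module.Finite ℤ S]

/-- `#(I / 𝔟 I) = N 𝔟`. -/
theorem CosetAuxReps_card (I 𝔟 : Ideal S) (hI : I ≠ ⊥) :
    Nat.card (Submodule.map (𝔟 * I).mkQ I) = Ideal.absNorm 𝔟 := by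
  have hle : 𝔟 * I ≤ I := Ideal.mul_le_right
  have h1 : Nat.card (S ⧸ (𝔟 * I)) =
      Nat.card (Submodule.map (𝔟 * I).mkQ I) *
        Nat.card ((S ⧸ (𝔟 * I)) ⧸ Submodule.map (𝔟 * I).mkQ I) :=
    Submodule.card_eq_card_quotient_mul_card _
  have h2 : Nat.card ((S ⧸ (𝔟 * I)) ⧸ Submodule.map (𝔟 * I).mkQ I) = Nat.card (S ⧸ I) :=
    Nat.card_congr (Submodule.quotientQuotientEquivQuotient (𝔟 * I) I hle).toEquiv
  have h3 : Ideal.absNorm (𝔟 * I) = Nat.card (S ⧸ (𝔟 * I)) := by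
    rw [Ideal.absNorm_apply, Submodule.cardQuot_apply]
  have h4 : Ideal.absNorm I = Nat.card (S ⧸ I) := by
    rw [Ideal.absNorm_apply, Submodule.cardQuot_apply]
  have h5 : Ideal.absNorm I ≠ 0 := by
    rw [Ne, Ideal.absNorm_eq_zero_iff]
    exact hI
  rw [h2, ← h3, ← h4, map_mul] at h1
  exact (Nat.eq_of_mul_eq_mul_right (Nat.pos_of_ne_zero h5) h1).symm

theorem CosetAuxReps_exists_reps (I 𝔟 𝔪 : Ideal S) (hI : I ≠ ⊥) (h𝔟 : 𝔟 ≠ ⊥)
    (hcop : IsCoprime 𝔟 𝔪) :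
    ∃ R : Finset S, R.card = Ideal.absNorm 𝔟 ∧
      (∀ v ∈ R, v ∈ I ∧ v ∈ 𝔪) ∧
      (∀ a ∈ I, ∃! v, v ∈ R ∧ a - v ∈ 𝔟 * I) := by
  have hJ : 𝔟 * I ≠ ⊥ := mul_ne_zero h𝔟 hI
  have hfinq : Finite (S ⧸ (𝔟 * I)) := Ideal.finiteQuotientOfFreeOfNeBot _ hJ
  set Q : Submodule S (S ⧸ (𝔟 * I)) := Submodule.map (𝔟 * I).mkQ I with hQ
  have hfin : Finite Q := inferInstance
  have : Fintype Q := Fintype.ofFinite Q
  obtain ⟨β, hβ, μ, hμ, hβμ⟩ := Submodule.mem_sup.mp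
    ((Ideal.eq_top_iff_one _).mp (Ideal.isCoprime_iff_sup_eq.mp hcop))
  have hex : ∀ t : Q, ∃ v : S, v ∈ I ∧ v ∈ 𝔪 ∧ (𝔟 * I).mkQ v = t.1 := by
    rintro ⟨t, ht⟩
    obtain ⟨a, ha, rfl⟩ := Submodule.mem_map.mp ht
    refine ⟨μ * a, I.mul_mem_left _ ha, 𝔪.mul_mem_right _ hμ, ?_⟩
    show (𝔟 * I).mkQ (μ * a) = (𝔟 * I).mkQ a
    rw [Submodule.mkQ_apply, Submodule.mkQ_apply, eq_comm, Submodule.Quotient.eq]
    have : a - μ * a = β * a := by
      have : a = (β + μ) * a := by rw [hβμ, one_mul]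
      nth_rewrite 1 [this]
      ring
    rw [this]
    exact Ideal.mul_mem_mul hβ ha
  choose rep hrepI hrepm hrep using hex
  have hinj : Function.Injective rep := by
    intro t t' h
    apply Subtype.ext
    rw [← hrep t, ← hrep t', h]
  refine ⟨Finset.univ.image rep, ?_, ?_, ?_⟩
  · rw [Finset.card_image_of_injective _ hinj, Finset.card_univ, ← Nat.card_eq_fintype_card]
    exact CosetAuxReps_card I 𝔟 hI
  · intro v hv
    obtain ⟨t, -, rfl⟩ := Finset.mem_image.mp hv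
    exact ⟨hrepI t, hrepm t⟩
  · intro a ha
    have hmem : (𝔟 * I).mkQ a ∈ Q := Submodule.mem_map_of_mem ha
    refine ⟨rep ⟨_, hmem⟩, ⟨Finset.mem_image_of_mem _ (Finset.mem_univ _), ?_⟩, ?_⟩
    · rw [← Submodule.Quotient.eq]
      exact (hrep ⟨_, hmem⟩).symm
    · rintro v ⟨hv, hav⟩
      obtain ⟨t, -, rfl⟩ := Finset.mem_image.mp hv
      congr 1
      apply Subtype.ext
      rw [← hrep t]
      rw [← Submodule.Quotient.eq] at hav
      exact hav.symm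

end

end Fermat.Agent.CH
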