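/-
Lib/Chebotarev, Part A: calculus of `HasLim` (task S48/CH-A-HasLim).
-/
import Fermat.Agent.Lib.Chebotarev.A.Defs

set_option autoImplicit false

namespace Fermat.Agent.CH

open Filter Topology

theorem HasLim.add {f g : ℝ → ℂ} (hf : HasLim f) (hg : HasLim g) :
    HasLim (fun s => f s + g s) := by
  obtain ⟨a, ha⟩ := hf
  obtain ⟨b, hb⟩ := hg
  exact ⟨a + b, ha.add hb⟩

theorem HasLim.sub {f g : ℝ → ℂ} (hf : HasLim f) (hg : HasLim g) :
    HasLim (fun s => f s - g s) := by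
  obtain ⟨a, ha⟩ := hf
  obtain ⟨b, hb⟩ := hg
  exact ⟨a - b, ha.sub hb⟩

theorem HasLim.mul {f g : ℝ → ℂ} (hf : HasLim f) (hg : HasLim g) :
    HasLim (fun s => f s * g s) := by
  obtain ⟨a, ha⟩ := hf
  obtain ⟨b, hb⟩ := hg
  exact ⟨a * b, ha.mul hb⟩

theorem HasLim.sum {ι : Type*} (A : Finset ι) {f : ι → ℝ → ℂ} (h : ∀ i ∈ A, HasLim (f i)) :
    HasLim (fun s => ∑ i ∈ A, f i s) := by
  classical
  induction A using Finset.induction_on with
  | empty => exact ⟨0, by simp⟩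
  | insert a A ha ih =>
    have h1 := h a (Finset.mem_insert_self a A)
    have h2 := ih (fun i hi => h i (Finset.mem_insert_of_mem hi))
    simpa [Finset.sum_insert ha] using h1.add h2

/-- only the values on `(1,2]` matter. -/
theorem HasLim.congr {f g : ℝ → ℂ} (hf : HasLim f) (h : ∀ s, 1 < s → s ≤ 2 → f s = g s) :
    HasLim g := by
  obtain ⟨a, ha⟩ := hf
  refine ⟨a, ha.congr' ?_⟩
  have : Set.Ioc (1 : ℝ) 2 ∈ 𝓝[>] (1 : ℝ) := Ioc_mem_nhdsGT (by norm_num)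
  filter_upwards [this] with s hs
  exact h s hs.1 hs.2

/-- the restriction to `(1,2]` of a function which is continuous on `[1,2]`. -/
theorem HasLim.of_continuousOn {f : ℝ → ℂ} (hf : ContinuousOn f (Set.Icc 1 2)) : HasLim f := by
  refine ⟨f 1, ?_⟩
  have h1 : ContinuousWithinAt f (Set.Icc 1 2) 1 := hf 1 ⟨le_rfl, by norm_num⟩
  have h2 : 𝓝[>] (1 : ℝ) ≤ 𝓝[Set.Icc 1 2] (1 : ℝ) := by
    rw [← nhdsWithin_Ioc_eq_nhdsGT (show (1 : ℝ) < 2 by norm_num)]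
    exact nhdsWithin_mono _ Set.Ioc_subset_Icc_self
  exact h1.tendsto.mono_left h2

/-- division by a function with a nonzero limit. -/
theorem HasLim.of_mul {f g : ℝ → ℂ} {b : ℂ} (hg : Tendsto g (𝓝[>] 1) (𝓝 b)) (hb : b ≠ 0)
    (h : HasLim (fun s => g s * f s)) : HasLim f := by
  obtain ⟨a, ha⟩ := h
  refine ⟨a / b, (ha.div hg hb).congr' ?_⟩
  have : ∀ᶠ s in 𝓝[>] (1 : ℝ), g s ≠ 0 := hg.eventually_ne hb
  filter_upwards [this] with s hs
  show g s * f s / g s = f s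
  field_simp

/-- a function with a limit at `1+` which is bounded on each `[1+δ,2]` is bounded on `(1,2]`. -/
theorem HasLim.exists_bound {f : ℝ → ℂ} (hf : HasLim f)
    (h : ∀ δ : ℝ, 0 < δ → ∃ B : ℝ, ∀ s, 1 + δ ≤ s → s ≤ 2 → ‖f s‖ ≤ B) :
    ∃ B : ℝ, ∀ s, 1 < s → s ≤ 2 → ‖f s‖ ≤ B := by
  obtain ⟨a, ha⟩ := hf
  have h1 : ∀ᶠ s in 𝓝[>] (1 : ℝ), ‖f s‖ < ‖a‖ + 1 :=
    (ha.norm).eventually_lt_const (by linarith)
  rw [eventually_nhdsWithin_iff, Metric.eventually_nhds_iff] at h1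
  obtain ⟨δ, hδ, h1⟩ := h1
  obtain ⟨B, hB⟩ := h (δ / 2) (by positivity)
  refine ⟨max B (‖a‖ + 1), fun s hs1 hs2 => ?_⟩
  by_cases hs : 1 + δ / 2 ≤ s
  · exact (hB s hs hs2).trans (le_max_left _ _)
  · refine (h1 ?_ hs1).le.trans (le_max_right _ _)
    rw [Real.dist_eq, abs_of_pos (by linarith)]
    rw [not_le] at hs
    linarith

end Fermat.Agent.CH
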