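/-
Lib/Chebotarev, Part A: the SHIFT LEMMA (tasks S48/CH-A-HBound, S48/CH-A-Shift).
`n = [E:ℚ]`, `h_s(x) = w(x) κ(x) N(x)^(-s)`.
-/
import Fermat.Agent.Lib.Chebotarev.A.Defs

set_option autoImplicit false

namespace Fermat.Agent.CH

open NumberField NumberField.mixedEmbedding NumberField.InfinitePlace
open scoped NumberField nonZeroDivisors Classical

variable (E : Type) [Field E] [NumberField E]

theorem norm_sgnChar_le (ε : ℂ) (hε : ‖ε‖ ≤ 1) (x : mixedSpace E) : ‖sgnChar E ε x‖ ≤ 1 := by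
  unfold sgnChar
  split_ifs
  · simp
  · exact hε

/-- (task CH-A-HBound) PROOF. `N x = ∏_v |x|_v ^ mult v` (`mixedEmbedding.norm_apply`),
`∑ mult v = n` (`sum_mult_eq`). -/
theorem norm_ge_of_normAtPlace_ge {c : ℝ} (hc : 0 ≤ c) (x : mixedSpace E)
    (h : ∀ v : InfinitePlace E, c ≤ normAtPlace v x) :
    c ^ Module.finrank ℚ E ≤ mixedEmbedding.norm x := by
  rw [mixedEmbedding.norm_apply, ← InfinitePlace.sum_mult_eq, ← Finset.prod_pow_eq_pow_sum]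
  exact Finset.prod_le_prod (fun v _ => pow_nonneg hc _)
    (fun v _ => pow_le_pow_left₀ hc (h v) _)

/-- (task CH-A-HBound) PROOF. If `w x = 0` the left side is `0`.  Otherwise `N x ≥ (c ‖x‖)^n`
(`IsWeight.supp`, `norm_ge_of_normAtPlace_ge`), so (if `x ≠ 0`)
`N x ^ (-s) ≤ (c ‖x‖)^(-n s) ≤ max 1 (c^(-2n)) ‖x‖^(-n s)`.  For `x = 0`: `N 0 = 0`,
`0 ^ (-s) = 0`. -/
theorem hfun_bound {w : mixedSpace E → ℝ} (hw : IsWeight E w) (ε : ℂ) (hε : ‖ε‖ ≤ 1) :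
    ∃ C : ℝ, 0 ≤ C ∧ ∀ (x : mixedSpace E) (s : ℝ), 1 ≤ s → s ≤ 2 →
      ‖hfun E w ε s x‖ ≤ C * ‖x‖ ^ (-((Module.finrank ℚ E : ℝ) * s)) := by
  obtain ⟨c, hc, hsupp⟩ := hw.supp
  obtain ⟨n, hn⟩ : ∃ n : ℕ, n = Module.finrank ℚ E := ⟨_, rfl⟩
  rw [← hn]
  refine ⟨max 1 (c ^ (-(2 * (n : ℝ)))), le_trans zero_le_one (le_max_left _ _), ?_⟩
  intro x s hs1 hs2
  have hC : (0 : ℝ) ≤ max 1 (c ^ (-(2 * (n : ℝ)))) := le_trans zero_le_one (le_max_left _ _)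
  have hN0 : 0 ≤ mixedEmbedding.norm x := mixedEmbedding.norm_nonneg x
  have hrhs : 0 ≤ max 1 (c ^ (-(2 * (n : ℝ)))) * ‖x‖ ^ (-((n : ℝ) * s)) :=
    mul_nonneg hC (Real.rpow_nonneg (norm_nonneg x) _)
  by_cases hwx : w x = 0
  · unfold hfun
    rw [hwx]
    simpa using hrhs
  by_cases hx : x = 0
  · unfold hfun
    rw [hx, map_zero, Real.zero_rpow (by linarith)]
    simpa [hx] using hrhs
  have hxpos : 0 < ‖x‖ := norm_pos_iff.2 hx
  have hcx : 0 < c * ‖x‖ := mul_pos hc hxpos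
  have hge : (c * ‖x‖) ^ n ≤ mixedEmbedding.norm x := by
    rw [hn]
    exact norm_ge_of_normAtPlace_ge E hcx.le x (hsupp x hwx)
  have h1 : ‖hfun E w ε s x‖ ≤ mixedEmbedding.norm x ^ (-s) := by
    unfold hfun
    rw [norm_mul, norm_mul, Complex.norm_real, Complex.norm_real, Real.norm_eq_abs,
      Real.norm_eq_abs, abs_of_nonneg (hw.nonneg x), abs_of_nonneg (Real.rpow_nonneg hN0 _)]
    have h2 : w x * ‖sgnChar E ε x‖ ≤ 1 :=
      mul_le_one₀ (hw.le_one x) (norm_nonneg _) (norm_sgnChar_le E ε hε x)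
    exact mul_le_of_le_one_left (Real.rpow_nonneg hN0 _) h2
  have h2 : mixedEmbedding.norm x ^ (-s) ≤ ((c * ‖x‖) ^ n) ^ (-s) :=
    Real.rpow_le_rpow_of_nonpos (pow_pos hcx n) hge (by linarith)
  have h3 : ((c * ‖x‖) ^ n) ^ (-s) = c ^ (-((n : ℝ) * s)) * ‖x‖ ^ (-((n : ℝ) * s)) := by
    rw [← Real.rpow_natCast, ← Real.rpow_mul hcx.le, Real.mul_rpow hc.le hxpos.le, mul_neg]
  have h4 : c ^ (-((n : ℝ) * s)) ≤ max 1 (c ^ (-(2 * (n : ℝ)))) := by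
    have hn0 : (0 : ℝ) ≤ n := Nat.cast_nonneg n
    rcases le_total 1 c with h | h
    · exact le_trans (Real.rpow_le_one_of_one_le_of_nonpos h
        (by have := mul_nonneg hn0 (le_trans zero_le_one hs1); linarith)) (le_max_left _ _)
    · refine le_trans (Real.rpow_le_rpow_of_exponent_ge hc h ?_) (le_max_right _ _)
      have := mul_le_mul_of_nonneg_left hs2 hn0
      linarith
  calc ‖hfun E w ε s x‖ ≤ mixedEmbedding.norm x ^ (-s) := h1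
    _ ≤ c ^ (-((n : ℝ) * s)) * ‖x‖ ^ (-((n : ℝ) * s)) := h3 ▸ h2
    _ ≤ _ := mul_le_mul_of_nonneg_right h4 (Real.rpow_nonneg hxpos.le _)

/-- (task CH-A-HBound) PROOF. If `N x = 0` the function is `0` on `[1,2]` (`Real.zero_rpow`);
otherwise `Real.continuous_const_rpow`-type lemma (`Real.rpow_def_of_pos`). -/
theorem continuousOn_hfun (w : mixedSpace E → ℝ) (ε : ℂ) (x : mixedSpace E) :
    ContinuousOn (fun s : ℝ => hfun E w ε s x) (Set.Icc 1 2) := by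
  intro s hs
  apply ContinuousAt.continuousWithinAt
  unfold hfun
  apply ContinuousAt.mul continuousAt_const
  apply Complex.continuous_ofReal.continuousAt.comp
  have h1 : ContinuousAt (fun t : ℝ => mixedEmbedding.norm x ^ t) (-s) :=
    Real.continuousAt_const_rpow' (by have := hs.1; linarith)
  exact ContinuousAt.comp (f := fun t : ℝ => -t) h1 continuous_neg.continuousAt

/-- (task CH-A-Shift) elementary inequality, no calculus needed: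
for `|t| ≤ 1/2`, `1 ≤ s ≤ 2`: `(1+t)^(-s)` lies between `(1+t)^(-2)`, `(1+t)^(-1)` and `1`;
`|(1+t)^(-1) - 1| ≤ 2|t|`, `|(1+t)^(-2) - 1| ≤ 8|t|` (or use the mean value theorem). -/
theorem abs_one_add_rpow_neg_sub_one_le {t s : ℝ} (ht : |t| ≤ 1 / 2) (hs1 : 1 ≤ s) (hs2 : s ≤ 2) :
    |(1 + t) ^ (-s) - 1| ≤ 8 * |t| := by
  sorry

/-- (task CH-A-Shift) comparison of the norms of two close points all of whose coordinates are large.
PROOF. `N y / N x = ∏_v (|y|_v/|x|_v)^(mult v)`, each factor is `1 + t_v`, `|t_v| ≤ δ`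
(`| |y|_v - |x|_v | ≤ |y - x|_v ≤ ‖y - x‖`, see `normAtPlace_add_le`, `normAtPlace_neg`,
`norm_eq_sup'_normAtPlace`); there are `n` factors counted with multiplicity and
`|∏ (1 + t_j) - 1| ≤ (1+δ)^n - 1 ≤ 2^n δ` for `δ ≤ 1`. -/
theorem abs_norm_div_sub_one_le (x y : mixedSpace E) (δ : ℝ) (hδ : δ ≤ 1)
    (hx : ∀ v : InfinitePlace E, 0 < normAtPlace v x)
    (h : ∀ v : InfinitePlace E, ‖y - x‖ ≤ δ * normAtPlace v x) :
    |mixedEmbedding.norm y / mixedEmbedding.norm x - 1| ≤ 2 ^ Module.finrank ℚ E * δ := by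
  sorry

/-- (task CH-A-Shift) PROOF. `x.1 v` and `y.1 v` have the same sign for every real place `v` because
`|y.1 v - x.1 v| ≤ ‖y - x‖ < |x.1 v|`; so the two products have the same sign
(`Finset.prod` of quotients `y.1 v / x.1 v > 0`). -/
theorem sgnChar_eq_of_close (ε : ℂ) (x y : mixedSpace E)
    (h : ∀ v : InfinitePlace E, ‖y - x‖ < normAtPlace v x) : sgnChar E ε y = sgnChar E ε x := by
  sorry

/-- (task CH-A-Shift) **SHIFT LEMMA**.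
PROOF. `c, C_L` from `hw.supp`, `hw.lip`; `R := max 1 (2^(n+3) ‖v‖ / c)` (say); `y := x + v`.
If `w x = 0 = w y`: trivial.
CASE `w x ≠ 0`: `|x|_u ≥ c ‖x‖` for all places `u`, `δ := ‖v‖/(c ‖x‖) ≤ 2^-(n+3)`:
`κ y = κ x` (`sgnChar_eq_of_close`), `N y = N x (1+t)`, `|t| ≤ 2^n δ ≤ 1/2`
(`abs_norm_div_sub_one_le`), `|N y^(-s) - N x^(-s)| = N x^(-s) |(1+t)^(-s) - 1| ≤ 8 · 2^n δ N x^(-s)`,
`N x^(-s) ≤ (c ‖x‖)^(-n s) ≤ C' ‖x‖^(-n)` (as `‖x‖ ≥ 1`, `s ≥ 1`), `|w y - w x| ≤ C_L ‖v‖/‖x‖`,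
`N y^(-s) ≤ 2^2 ... N x^(-s)`.  Write
`h(y) - h(x) = κ x [ (w y - w x) N y^(-s) + w x (N y^(-s) - N x^(-s)) ]`.
CASE `w x = 0`, `w y ≠ 0`: same argument with the roles of `x` and `y` exchanged
(`‖y‖ ≥ ‖x‖ - ‖v‖ ≥ ‖x‖/2`). -/
theorem shift_bound {w : mixedSpace E → ℝ} (hw : IsWeight E w) (ε : ℂ) (hε : ‖ε‖ ≤ 1)
    (v : mixedSpace E) :
    ∃ C R : ℝ, 0 ≤ C ∧ ∀ x : mixedSpace E, R ≤ ‖x‖ → ∀ s : ℝ, 1 ≤ s → s ≤ 2 →
      ‖hfun E w ε s (x + v) - hfun E w ε s x‖ ≤ C * ‖x‖ ^ (-(Module.finrank ℚ E : ℝ) - 1) := by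
  sorry

end Fermat.Agent.CH
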