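/-
Lib/Chebotarev, Part A: sums over the lattice `𝓞 E` (task S48/CH-A-Limit).
-/
import Fermat.Agent.Lib.Chebotarev.A.Shift
import Fermat.Agent.Lib.Chebotarev.A.HasLim

set_option autoImplicit false

namespace Fermat.Agent.CH

open NumberField NumberField.mixedEmbedding NumberField.InfinitePlace
open scoped NumberField nonZeroDivisors Classical

variable (E : Type) [Field E] [NumberField E]

theorem iot_add (a b : 𝓞 E) : iot E (a + b) = iot E a + iot E b := by
  simp [iot]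

/-- PROOF. `a ↦ ι a` is a bijection from `𝓞 E` onto `mixedEmbedding.integerLattice E`, a `ℤ`-lattice
of rank `n` in `mixedSpace E` (instances in Mathlib; `ZLattice.rank`, `mixedEmbedding.finrank`);
`ZLattice.summable_norm_sub_rpow` with `x = - ι v`. -/
theorem summable_norm_iot_rpow (r : ℝ) (hr : r < -(Module.finrank ℚ E : ℝ)) (v : 𝓞 E) :
    Summable fun a : 𝓞 E => ‖iot E (a + v)‖ ^ r := by
  sorry

/-- PROOF. `hfun_bound` + `summable_norm_iot_rpow` with `r = - n s`. -/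
theorem summable_hfun {w : mixedSpace E → ℝ} (hw : IsWeight E w) (ε : ℂ) (hε : ‖ε‖ ≤ 1)
    (c : 𝓞 E → ℂ) (hc : ∀ a, ‖c a‖ ≤ 1) (v : 𝓞 E) {s : ℝ} (hs : 1 < s) (hs2 : s ≤ 2) :
    Summable fun a : 𝓞 E => c a * hfun E w ε s (iot E (a + v)) := by
  sorry

/-- PROOF. Let `d_s(a) = c a (h_s(ι a + ι v) - h_s(ι a))`.  By `shift_bound`
`‖d_s(a)‖ ≤ C ‖ι a‖^(-n-1)` for all `s ∈ [1,2]` and all `a` outside the FINITE set `{‖ι a‖ < R}`
(finite: the lattice is discrete; or: a summable family of terms `‖ι a‖^(-n-1) > R^(-n-1)`); on the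
finite set bound `‖d_s(a)‖` by its sup over the compact `[1,2]` (`continuousOn_hfun`,
`IsCompact.exists_bound_of_continuousOn`).  So `‖d_s(a)‖ ≤ u a` with `u` summable
(`summable_norm_iot_rpow` with `r = -n-1`, `v = 0`), each `d_·(a)` is continuous on `[1,2]`:
`continuousOn_tsum`, then `HasLim.of_continuousOn`. -/
theorem hasLim_shift {w : mixedSpace E → ℝ} (hw : IsWeight E w) (ε : ℂ) (hε : ‖ε‖ ≤ 1)
    (c : 𝓞 E → ℂ) (hc : ∀ a, ‖c a‖ ≤ 1) (v : 𝓞 E) :
    HasLim fun s : ℝ =>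
      ∑' a : 𝓞 E, c a * (hfun E w ε s (iot E (a + v)) - hfun E w ε s (iot E a)) := by
  sorry

end Fermat.Agent.CH
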