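/-
Lib/Chebotarev, Part A: comparison of the sums over `I` and over `𝔟 I`
(tasks S48/CH-A-Reps, S48/CH-A-Coset).
-/
import Fermat.Agent.Lib.Chebotarev.A.Limit
import Fermat.Agent.Lib.Chebotarev.A.Sign
import Fermat.Agent.Lib.Chebotarev.A.CosetAuxReps

set_option autoImplicit false

namespace Fermat.Agent.CH

open NumberField NumberField.mixedEmbedding NumberField.InfinitePlace
open scoped NumberField nonZeroDivisors Classical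

variable (E : Type) [Field E] [NumberField E] {m : ℕ}

/-- (task CH-A-Reps; pure algebra) representatives of `I / 𝔟 I` inside `m 𝓞 ∩ I`.
PROOF. `Q := {t : 𝓞 E ⧸ 𝔟 I | t ∈ image of I}` is finite of cardinality
`N(𝔟 I)/N(I) = N 𝔟` (kernel of `𝓞/𝔟I → 𝓞/I`; `Ideal.absNorm` is multiplicative, `Ideal.absNorm_apply`,
`Submodule.cardQuot_apply`, or `Ideal.cardQuot_mul`-type lemmas).  `𝔟 + (m) = 1`: write `1 = β + μ`,
`β ∈ 𝔟`, `μ ∈ (m)`; for `a ∈ I`: `a = β a + μ a`, `β a ∈ 𝔟 I`, `μ a ∈ (m) ∩ I`.  So every class in `Q`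
has a representative in `(m) ∩ I`; choose one for each class: this is `R`. -/
theorem exists_reps (I 𝔟 : Ideal (𝓞 E)) (hI : I ≠ ⊥) (h𝔟 : 𝔟 ≠ ⊥)
    (hcop : IsCoprime 𝔟 (Ideal.span {(m : 𝓞 E)})) :
    ∃ R : Finset (𝓞 E), R.card = Ideal.absNorm 𝔟 ∧
      (∀ v ∈ R, v ∈ I ∧ v ∈ Ideal.span {(m : 𝓞 E)}) ∧
      (∀ a ∈ I, ∃! v, v ∈ R ∧ a - v ∈ 𝔟 * I) :=
  CosetAuxReps_exists_reps I 𝔟 _ hI h𝔟 hcop

/-- (task CH-A-Coset) PROOF. The map `(v, b) ↦ b + v` is a bijection from `R × 𝔟I` onto `I`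
(`h2`, `h3`).  Write both sides as sums over subtypes (`tsum_subtype`/`Set.indicator`), use
`Equiv.tsum_eq`, `Summable.tsum_prod'`/`tsum_fintype` (cf. `Fermat.Agent.S14.AN.CosetAux`). -/
theorem tsum_ite_mem_eq_sum_reps (I I' : Ideal (𝓞 E)) (hle : I' ≤ I) (R : Finset (𝓞 E))
    (h2 : ∀ v ∈ R, v ∈ I) (h3 : ∀ a ∈ I, ∃! v, v ∈ R ∧ a - v ∈ I') (f : 𝓞 E → ℂ)
    (hf : Summable f) :
    ∑' a : 𝓞 E, (if a ∈ I then f a else 0) =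
      ∑ v ∈ R, ∑' b : 𝓞 E, (if b ∈ I' then f (b + v) else 0) := by
  sorry

/-- (task CH-A-Coset) **KEY LEMMA** (lattice form).
PROOF. `R` from `exists_reps`, `ε = χ(-1)`, `f_s a = χ(N a) h_s(ι a)` (summable for `1 < s ≤ 2`:
`summable_hfun` with `v = 0`).  By `tsum_ite_mem_eq_sum_reps` and `chiE_add_of_mem`
(`χ(N(b + v)) = χ(N b)` because `v ∈ (m)`):
`P_I(s) = ∑_{v ∈ R} ∑'_b [b ∈ 𝔟I] χ(N b) h_s(ι(b + v))`, and `N𝔟 · P_{𝔟I}(s) = ∑_{v ∈ R} P_{𝔟I}(s)`.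
So for `1 < s ≤ 2` the difference is `∑_{v ∈ R} ∑'_b c(b) (h_s(ι(b+v)) - h_s(ι b))`,
`c(b) = if b ∈ 𝔟I then χ(N b) else 0` (`Summable.tsum_sub`, `summable_hfun`).  Conclude by
`hasLim_shift`, `HasLim.sum`, `HasLim.congr`. -/
theorem hasLim_Psum_sub {w : mixedSpace E → ℝ} (hw : IsWeight E w) (χ : DirichletCharacter ℂ m)
    (I 𝔟 : Ideal (𝓞 E)) (hI : I ≠ ⊥) (h𝔟 : 𝔟 ≠ ⊥)
    (hcop : IsCoprime 𝔟 (Ideal.span {(m : 𝓞 E)})) :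
    HasLim fun s : ℝ => Psum E χ w I s - (Ideal.absNorm 𝔟 : ℂ) * Psum E χ w (𝔟 * I) s := by
  sorry

end Fermat.Agent.CH
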