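/-
Lib/Chebotarev, Part A: logarithmic coordinates on the mixed space with respect to a system of
fundamental units (task S48/CH-A-LogCoord).
-/
import Fermat.Agent.Lib.Chebotarev.A.Defs

set_option autoImplicit false

namespace Fermat.Agent.CH

open NumberField NumberField.mixedEmbedding NumberField.InfinitePlace NumberField.Units
  NumberField.Units.dirichletUnitTheorem
open scoped NumberField nonZeroDivisors Classical

variable (E : Type) [Field E] [NumberField E]

/-- the coordinates of `logMap x` in the basis of `logSpace E` given by the fundamental units. -/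
noncomputable def tco (x : mixedSpace E) : Fin (rank E) → ℝ := fun i =>
  ((basisUnitLattice E).ofZLatticeBasis ℝ (unitLattice E)).repr (logMap x) i

/-- PROOF. `logMap_unit_smul`, `logEmbedding` is additive, kills torsion (`logEmbedding_eq_zero_iff`),
`logEmbedding_fundSystem`, `Basis.ofZLatticeBasis_apply`, `Basis.repr_self`. -/
theorem tco_unit_smul (x : mixedSpace E) (hx : mixedEmbedding.norm x ≠ 0) (ζ : torsion E)
    (e : Fin (rank E) → ℤ) (i : Fin (rank E)) :
    tco E (((ζ : (𝓞 E)ˣ) * ∏ j, fundSystem E j ^ e j) • x) i = tco E x i + e i := by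
  unfold tco
  rw [logMap_unit_smul _ hx, map_add, Finsupp.add_apply, add_comm]
  congr 1
  have h1 : logEmbedding E (Additive.ofMul ((ζ : (𝓞 E)ˣ) * ∏ j, fundSystem E j ^ e j)) =
      ∑ j, (e j : ℝ) • ((basisUnitLattice E).ofZLatticeBasis ℝ (unitLattice E)) j := by
    rw [ofMul_mul, map_add, (logEmbedding_eq_zero_iff).mpr ζ.2, zero_add, ofMul_prod, map_sum]
    refine Finset.sum_congr rfl fun j _ => ?_
    rw [ofMul_zpow, map_zsmul, logEmbedding_fundSystem, Module.Basis.ofZLatticeBasis_apply,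
      Int.cast_smul_eq_zsmul]
  rw [h1, Module.Basis.repr_sum_self]

theorem LogCoord_log_norm (x : mixedSpace E) (hx : mixedEmbedding.norm x ≠ 0) :
    Real.log (mixedEmbedding.norm x) =
      ∑ w : InfinitePlace E, (mult w : ℝ) * Real.log (normAtPlace w x) := by
  rw [mixedEmbedding.norm_apply, Real.log_prod]
  · exact Finset.sum_congr rfl fun w _ => Real.log_pow _ _
  · intro w _
    exact pow_ne_zero _ (mixedEmbedding.norm_ne_zero_iff.mp hx w)

theorem LogCoord_sum_mult : ∑ w : InfinitePlace E, (mult w : ℝ) = Module.finrank ℚ E := by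
  exact_mod_cast sum_mult_eq (K := E)

omit [NumberField E] in
theorem LogCoord_mult_le (w : InfinitePlace E) : (mult w : ℝ) ≤ 2 := by
  unfold mult
  split_ifs <;> norm_num

theorem LogCoord_sum_zero (x : mixedSpace E) (hx : mixedEmbedding.norm x ≠ 0) :
    ∑ w : InfinitePlace E, (mult w : ℝ) * (Real.log (normAtPlace w x) -
      Real.log (mixedEmbedding.norm x) * (Module.finrank ℚ E : ℝ)⁻¹) = 0 := by
  simp_rw [mul_sub]
  rw [Finset.sum_sub_distrib, ← LogCoord_log_norm E x hx, ← Finset.sum_mul, LogCoord_sum_mult]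
  have : (Module.finrank ℚ E : ℝ) ≠ 0 := Nat.cast_ne_zero.mpr (Module.finrank_pos).ne'
  field_simp
  ring

/-- `tco` is Lipschitz in the logarithms of the absolute values.
PROOF. `repr` is a linear map between finite dimensional spaces, hence bounded
(`LinearMap.toContinuousLinearMap`, `ContinuousLinearMap.le_opNorm`); `logMap x - logMap y` has
coordinates `mult w * ((log|x|_w - log|y|_w) - (log N x - log N y)/n)` and
`log N x = ∑ mult w * log |x|_w` (`mixedEmbedding.norm_apply`, `Real.log_prod`), `∑ mult w = n`;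
so `‖logMap x - logMap y‖ ≤ 4 δ`. -/
theorem exists_tco_lip : ∃ C : ℝ, 0 ≤ C ∧ ∀ x y : mixedSpace E, mixedEmbedding.norm x ≠ 0 →
    mixedEmbedding.norm y ≠ 0 → ∀ δ : ℝ,
    (∀ v : InfinitePlace E, |Real.log (normAtPlace v x) - Real.log (normAtPlace v y)| ≤ δ) →
    ∀ i, |tco E x i - tco E y i| ≤ C * δ := by
  let Φ : logSpace E →L[ℝ] (Fin (rank E) → ℝ) := LinearMap.toContinuousLinearMap
    ((basisUnitLattice E).ofZLatticeBasis ℝ (unitLattice E)).equivFun.toLinearMap
  refine ⟨‖Φ‖ * 4, by positivity, fun x y hx hy δ hδ i => ?_⟩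
  have hδ0 : 0 ≤ δ := le_trans (abs_nonneg _) (hδ w₀)
  have hn : (0 : ℝ) < Module.finrank ℚ E := Nat.cast_pos.mpr Module.finrank_pos
  have hN : |Real.log (mixedEmbedding.norm x) - Real.log (mixedEmbedding.norm y)| ≤
      Module.finrank ℚ E * δ := by
    rw [LogCoord_log_norm E x hx, LogCoord_log_norm E y hy, ← Finset.sum_sub_distrib,
      ← LogCoord_sum_mult, Finset.sum_mul]
    refine (Finset.abs_sum_le_sum_abs _ _).trans (Finset.sum_le_sum fun w _ => ?_)
    rw [← mul_sub, abs_mul, abs_of_nonneg (Nat.cast_nonneg _)]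
    exact mul_le_mul_of_nonneg_left (hδ w) (Nat.cast_nonneg _)
  have hlog : ‖logMap x - logMap y‖ ≤ 4 * δ := by
    rw [pi_norm_le_iff_of_nonneg (by positivity)]
    intro w
    rw [Pi.sub_apply, logMap_apply, logMap_apply, ← mul_sub, Real.norm_eq_abs, abs_mul,
      abs_of_nonneg (Nat.cast_nonneg _)]
    have h1 : |(Real.log (normAtPlace w.1 x) -
          Real.log (mixedEmbedding.norm x) * (Module.finrank ℚ E : ℝ)⁻¹) -
        (Real.log (normAtPlace w.1 y) -
          Real.log (mixedEmbedding.norm y) * (Module.finrank ℚ E : ℝ)⁻¹)| ≤ 2 * δ := by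
      have h2 : (Real.log (normAtPlace w.1 x) -
          Real.log (mixedEmbedding.norm x) * (Module.finrank ℚ E : ℝ)⁻¹) -
        (Real.log (normAtPlace w.1 y) -
          Real.log (mixedEmbedding.norm y) * (Module.finrank ℚ E : ℝ)⁻¹) =
        (Real.log (normAtPlace w.1 x) - Real.log (normAtPlace w.1 y)) -
          (Real.log (mixedEmbedding.norm x) - Real.log (mixedEmbedding.norm y)) *
            (Module.finrank ℚ E : ℝ)⁻¹ := by ring
      rw [h2]
      refine (abs_sub _ _).trans ?_
      have h3 : |(Real.log (mixedEmbedding.norm x) - Real.log (mixedEmbedding.norm y)) *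
            (Module.finrank ℚ E : ℝ)⁻¹| ≤ δ := by
        rw [abs_mul, abs_of_pos (inv_pos.mpr hn), ← div_eq_mul_inv, div_le_iff₀ hn]
        linarith [hN]
      linarith [hδ w.1]
    calc (mult w.1 : ℝ) * _ ≤ 2 * (2 * δ) :=
          mul_le_mul (LogCoord_mult_le E w.1) h1 (abs_nonneg _) (by norm_num)
      _ = 4 * δ := by ring
  have h5 : tco E x i - tco E y i = Φ (logMap x - logMap y) i := by
    rw [map_sub]
    rfl
  rw [h5]
  calc |Φ (logMap x - logMap y) i| ≤ ‖Φ (logMap x - logMap y)‖ := by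
        rw [← Real.norm_eq_abs]
        exact norm_le_pi_norm (Φ (logMap x - logMap y)) i
    _ ≤ ‖Φ‖ * ‖logMap x - logMap y‖ := Φ.le_opNorm _
    _ ≤ ‖Φ‖ * (4 * δ) := by gcongr
    _ = ‖Φ‖ * 4 * δ := by ring

/-- If all the coordinates are `≤ 1` in absolute value then all `|x|_v` are comparable to
`N(x)^(1/n)`.
PROOF. `logMap x = ∑ tco x i • b i`, so `‖logMap x‖ ≤ ∑ ‖b i‖ =: R₀`; this bounds
`|log|x|_v - log N x / n| ≤ R₀` for `v ≠ w₀` (`mult v ≥ 1`); for `v = w₀` use
`∑_v mult v * (log|x|_v - log N x / n) = 0`. -/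
theorem exists_tco_bound : ∃ R : ℝ, ∀ x : mixedSpace E, mixedEmbedding.norm x ≠ 0 →
    (∀ i, |tco E x i| ≤ 1) → ∀ v : InfinitePlace E,
    |Real.log (normAtPlace v x) - Real.log (mixedEmbedding.norm x) / Module.finrank ℚ E| ≤ R := by
  set B := (basisUnitLattice E).ofZLatticeBasis ℝ (unitLattice E) with hB
  set R₀ : ℝ := ∑ i, ‖B i‖ with hR₀
  have hR₀0 : 0 ≤ R₀ := Finset.sum_nonneg fun _ _ => norm_nonneg _
  refine ⟨(Fintype.card {w : InfinitePlace E // w ≠ w₀} : ℝ) * R₀ + R₀, fun x hx ht v => ?_⟩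
  have hlog : ‖logMap x‖ ≤ R₀ := by
    have h1 : logMap x = ∑ i, tco E x i • B i := (B.sum_repr (logMap x)).symm
    rw [h1]
    refine (norm_sum_le _ _).trans (Finset.sum_le_sum fun i _ => ?_)
    rw [_root_.norm_smul, Real.norm_eq_abs]
    exact mul_le_of_le_one_left (norm_nonneg _) (ht i)
  have hw : ∀ w : {w : InfinitePlace E // w ≠ w₀}, |logMap x w| ≤ R₀ :=
    fun w => (norm_le_pi_norm (logMap x) w).trans hlog
  rw [div_eq_mul_inv]
  have key : ∀ v : InfinitePlace E, |Real.log (normAtPlace v x) -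
        Real.log (mixedEmbedding.norm x) * (Module.finrank ℚ E : ℝ)⁻¹| ≤
      |(mult v : ℝ) * (Real.log (normAtPlace v x) -
        Real.log (mixedEmbedding.norm x) * (Module.finrank ℚ E : ℝ)⁻¹)| := by
    intro v
    rw [abs_mul, abs_of_nonneg (Nat.cast_nonneg (mult v) : (0 : ℝ) ≤ (mult v : ℝ))]
    exact le_mul_of_one_le_left (abs_nonneg _) one_le_mult
  have hc : 0 ≤ (Fintype.card {w : InfinitePlace E // w ≠ w₀} : ℝ) * R₀ := by positivity
  by_cases hv : v = w₀
  · have hs := LogCoord_sum_zero E x hx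
    rw [Fintype.sum_eq_add_sum_subtype_ne _ w₀] at hs
    have h2 : (mult (w₀ : InfinitePlace E) : ℝ) * (Real.log (normAtPlace w₀ x) -
        Real.log (mixedEmbedding.norm x) * (Module.finrank ℚ E : ℝ)⁻¹) =
        - ∑ w : {w : InfinitePlace E // w ≠ w₀}, logMap x w := by
      rw [eq_neg_iff_add_eq_zero]
      exact hs
    rw [hv]
    refine (key w₀).trans ?_
    rw [h2, abs_neg]
    refine (Finset.abs_sum_le_sum_abs _ _).trans ?_
    calc ∑ w : {w : InfinitePlace E // w ≠ w₀}, |logMap x w|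
        ≤ ∑ _w : {w : InfinitePlace E // w ≠ w₀}, R₀ := Finset.sum_le_sum fun w _ => hw w
      _ = (Fintype.card {w : InfinitePlace E // w ≠ w₀} : ℝ) * R₀ := by simp
      _ ≤ _ := by linarith
  · refine (key v).trans ((hw ⟨v, hv⟩).trans ?_)
    linarith

end Fermat.Agent.CH
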