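/-
Lib/Chebotarev, Part A: unfolding: a sum over principal ideals is a weighted sum over elements
(task S48/CH-A-Unfold).
-/
import Fermat.Agent.Lib.Chebotarev.A.Limit
import Fermat.Agent.Lib.Chebotarev.A.Sign

set_option autoImplicit false

namespace Fermat.Agent.CH

open NumberField NumberField.mixedEmbedding NumberField.InfinitePlace
open scoped NumberField nonZeroDivisors Classical
open Fermat.Agent.S14.AN (nrm)

variable (E : Type) [Field E] [NumberField E] {m : ℕ}

/-- **Unfolding** (abstract form).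
PROOF. `X := {a : 𝓞 E // a ≠ 0}`, `π : X → (Ideal (𝓞 E))⁰`, `π a = spanI a`.  The image of `π` is the set
of principal ideals; the fibre of `π` through `a₀` is `{u a₀ : u ∈ (𝓞 E)ˣ}`, `u ↦ u a₀` injective
(`Ideal.span_singleton_eq_span_singleton`, `Associated`).  `ι (u a₀) = u • ι a₀` (`unitSMul_smul`,
`map_mul`) and `N (ι a₀) ≠ 0`, so `∑_{a ∈ fibre} w (ι a) = 1` (`hw.hasSum`).
The family `a ↦ w (ι a) G (π a)` is summable on `X`: its norm is `w (ι a) ‖G (π a)‖`, a nonnegative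
family whose sum over each fibre is `‖G I‖`, and `G` is summable (`summable_sigma_of_nonneg` after
`Equiv.sigmaFiberEquiv π`).  Then `tsum_sigma'` / `HasSum.sigma`. -/
theorem tsum_weight_eq {w : mixedSpace E → ℝ} (hw : IsWeight E w) (G : (Ideal (𝓞 E))⁰ → ℂ)
    (hG : Summable G) :
    ∑' a : 𝓞 E, (if h : a = 0 then 0 else (w (iot E a) : ℂ) * G (spanI E a h)) =
      ∑' I : (Ideal (𝓞 E))⁰, if (I : Ideal (𝓞 E)).IsPrincipal then G I else 0 := by
  sorry

/-- PROOF. `tsum_weight_eq` with `G I = if J ∣ I then χ(N I) N I^(-s) else 0` (summable: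
`Fermat.Agent.S14.AN.summable_nrm`, `norm_chiN_le`).  Termwise for `a ≠ 0`:
`a ∈ J ↔ J ∣ span {a}` (`Ideal.dvd_span_singleton`), `chiN_spanI`, `norm_iot`
(`nrm E s (spanI a) = N(ι a)^(-s)`); for `a = 0`: `hfun .. (ι 0) = 0` since `N 0 = 0`,
`0^(-s) = 0`. -/
theorem Psum_eq_Lpr {w : mixedSpace E → ℝ} (hw : IsWeight E w) (χ : DirichletCharacter ℂ m)
    (J : Ideal (𝓞 E)) {s : ℝ} (hs : 1 < s) : Psum E χ w J s = Lpr E χ J s := by
  sorry

end Fermat.Agent.CH
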