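/-
Lib/Chebotarev, Part A: the tent function (task S48/CH-A-Tent).  Mathlib only.
-/
import Mathlib

set_option autoImplicit false

namespace Fermat.Agent.CH

/-- the tent function `max(0, 1 - |t|)`. -/
noncomputable def tent (t : ℝ) : ℝ := max 0 (1 - |t|)

theorem tent_nonneg (t : ℝ) : 0 ≤ tent t := le_max_left _ _

theorem tent_le_one (t : ℝ) : tent t ≤ 1 := max_le zero_le_one (by linarith [abs_nonneg t])

theorem tent_eq_zero {t : ℝ} (h : 1 ≤ |t|) : tent t = 0 := max_eq_left (by linarith)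

theorem abs_lt_one_of_tent_ne_zero {t : ℝ} (h : tent t ≠ 0) : |t| < 1 := by
  by_contra h'
  exact h (tent_eq_zero (not_lt.mp h'))

/-- `tent` is `1`-Lipschitz. -/
theorem abs_tent_sub_le (t t' : ℝ) : |tent t - tent t'| ≤ |t - t'| := by
  unfold tent
  rw [max_comm 0, max_comm 0]
  refine (abs_max_sub_max_le_abs _ _ _).trans ?_
  have h : (1 - |t|) - (1 - |t'|) = |t'| - |t| := by ring
  rw [h, abs_sub_comm t t']
  exact abs_abs_sub_abs_le t' t

/-- the two integers `k` with `tent (t + k) ≠ 0`. -/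
noncomputable def Tent_supp (t : ℝ) : Finset ℤ := {-⌊t⌋, -⌊t⌋ - 1}

theorem Tent_eq_zero_of_notMem (t : ℝ) {k : ℤ} (hk : k ∉ Tent_supp t) : tent (t + k) = 0 := by
  apply tent_eq_zero
  simp only [Tent_supp, Finset.mem_insert, Finset.mem_singleton, not_or] at hk
  obtain ⟨h1, h2⟩ := hk
  have hf0 := Int.fract_nonneg t
  have hf1 := Int.fract_lt_one t
  have ht : t = ⌊t⌋ + Int.fract t := (Int.floor_add_fract t).symm
  rcases lt_or_gt_of_ne h1 with h | h
  · have h3 : k ≤ -⌊t⌋ - 2 := by omega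
    have h4 : (k : ℝ) ≤ -(⌊t⌋ : ℝ) - 2 := by exact_mod_cast h3
    rw [le_abs]
    right
    linarith
  · have h3 : -⌊t⌋ + 1 ≤ k := by omega
    have h4 : -(⌊t⌋ : ℝ) + 1 ≤ (k : ℝ) := by exact_mod_cast h3
    rw [le_abs]
    left
    linarith

theorem Tent_sum_supp (t : ℝ) : ∑ k ∈ Tent_supp t, tent (t + k) = 1 := by
  have hf0 := Int.fract_nonneg t
  have hf1 := Int.fract_lt_one t
  have hne : (-⌊t⌋ : ℤ) ≠ -⌊t⌋ - 1 := by omega
  rw [Tent_supp, Finset.sum_pair hne]
  have h1 : t + ((-⌊t⌋ : ℤ) : ℝ) = Int.fract t := by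
    rw [Int.fract]; push_cast; ring
  have h2 : t + ((-⌊t⌋ - 1 : ℤ) : ℝ) = Int.fract t - 1 := by
    rw [Int.fract]; push_cast; ring
  rw [h1, h2]
  unfold tent
  rw [abs_of_nonneg hf0, abs_of_nonpos (by linarith), max_eq_right (by linarith),
    max_eq_right (by linarith)]
  ring

/-- PROOF. `f = Int.fract t`, `k₀ = -⌊t⌋`: `tent (t + k₀) = 1 - f`, `tent (t + (k₀ - 1)) = f`, all the
other terms vanish (`hasSum_sum_of_ne_finset_zero` with the finset `{k₀, k₀ - 1}`). -/
theorem hasSum_tent (t : ℝ) : HasSum (fun k : ℤ => tent (t + k)) 1 := by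
  rw [← Tent_sum_supp t]
  exact hasSum_sum_of_ne_finset_zero fun k hk => Tent_eq_zero_of_notMem t hk

/-- PROOF. The function is supported in `Fintype.piFinset fun i => {k₀ i, k₀ i - 1}`;
`Finset.prod_univ_sum` + (the finite form of) `hasSum_tent`. -/
theorem hasSum_prod_tent {r : ℕ} (t : Fin r → ℝ) :
    HasSum (fun k : Fin r → ℤ => ∏ i, tent (t i + k i)) 1 := by
  have h1 : ∑ k ∈ Fintype.piFinset (fun i => Tent_supp (t i)), ∏ i, tent (t i + k i) = 1 := by
    rw [← Finset.prod_univ_sum (fun i => Tent_supp (t i)) (fun i (j : ℤ) => tent (t i + j))]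
    exact Finset.prod_eq_one fun i _ => Tent_sum_supp (t i)
  rw [← h1]
  refine hasSum_sum_of_ne_finset_zero fun k hk => ?_
  rw [Fintype.mem_piFinset, not_forall] at hk
  obtain ⟨i, hi⟩ := hk
  exact Finset.prod_eq_zero (Finset.mem_univ i) (Tent_eq_zero_of_notMem (t i) hi)

/-- PROOF. Induction on the finset (telescoping), all factors are in `[0,1]`. -/
theorem abs_prod_tent_sub_le {r : ℕ} (t t' : Fin r → ℝ) :
    |∏ i, tent (t i) - ∏ i, tent (t' i)| ≤ ∑ i, |t i - t' i| := by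
  classical
  have key : ∀ s : Finset (Fin r),
      |∏ i ∈ s, tent (t i) - ∏ i ∈ s, tent (t' i)| ≤ ∑ i ∈ s, |t i - t' i| := by
    intro s
    induction s using Finset.induction_on with
    | empty => simp
    | insert a s ha ih =>
      rw [Finset.prod_insert ha, Finset.prod_insert ha, Finset.sum_insert ha]
      have hP0 : 0 ≤ ∏ i ∈ s, tent (t i) := Finset.prod_nonneg fun i _ => tent_nonneg _
      have hP1 : ∏ i ∈ s, tent (t i) ≤ 1 :=
        Finset.prod_le_one (fun i _ => tent_nonneg _) (fun i _ => tent_le_one _)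
      have h : tent (t a) * ∏ i ∈ s, tent (t i) - tent (t' a) * ∏ i ∈ s, tent (t' i) =
          (tent (t a) - tent (t' a)) * ∏ i ∈ s, tent (t i) +
            tent (t' a) * (∏ i ∈ s, tent (t i) - ∏ i ∈ s, tent (t' i)) := by ring
      rw [h]
      refine (abs_add_le _ _).trans (add_le_add ?_ ?_)
      · rw [abs_mul, abs_of_nonneg hP0]
        exact (mul_le_of_le_one_right (abs_nonneg _) hP1).trans (abs_tent_sub_le _ _)
      · rw [abs_mul, abs_of_nonneg (tent_nonneg _)]
        exact (mul_le_of_le_one_left (abs_nonneg _) (tent_le_one _)).trans ih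
  exact key Finset.univ

theorem prod_tent_nonneg {r : ℕ} (t : Fin r → ℝ) : 0 ≤ ∏ i, tent (t i) :=
  Finset.prod_nonneg fun i _ => tent_nonneg _

theorem prod_tent_le_one {r : ℕ} (t : Fin r → ℝ) : ∏ i, tent (t i) ≤ 1 :=
  Finset.prod_le_one (fun i _ => tent_nonneg _) (fun i _ => tent_le_one _)

end Fermat.Agent.CH
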