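/-
Lib/Chebotarev, Part A: existence of a weight function
(tasks S48/CH-A-WgtSum, S48/CH-A-WgtSupp, S48/CH-A-WgtLip).
-/
import Fermat.Agent.Lib.Chebotarev.A.Tent
import Fermat.Agent.Lib.Chebotarev.A.LogCoord

set_option autoImplicit false

namespace Fermat.Agent.CH

open NumberField NumberField.mixedEmbedding NumberField.InfinitePlace NumberField.Units
  NumberField.Units.dirichletUnitTheorem
open scoped NumberField nonZeroDivisors Classical

variable (E : Type) [Field E] [NumberField E]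

/-- the weight function. -/
noncomputable def wgt (x : mixedSpace E) : ℝ :=
  if mixedEmbedding.norm x = 0 then 0 else (torsionOrder E : ℝ)⁻¹ * ∏ i, tent (tco E x i)

theorem wgt_nonneg (x : mixedSpace E) : 0 ≤ wgt E x := by
  unfold wgt
  split_ifs
  · exact le_rfl
  · exact mul_nonneg (by positivity) (prod_tent_nonneg _)

theorem wgt_le_one (x : mixedSpace E) : wgt E x ≤ 1 := by
  unfold wgt
  split_ifs
  · exact zero_le_one
  · have h1 : (1 : ℝ) ≤ torsionOrder E := by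
      have : 0 < torsionOrder E := torsionOrder_pos E
      exact_mod_cast this
    have h2 : (torsionOrder E : ℝ)⁻¹ ≤ 1 := inv_le_one_of_one_le₀ h1
    calc (torsionOrder E : ℝ)⁻¹ * ∏ i, tent (tco E x i) ≤ 1 * 1 :=
          mul_le_mul h2 (prod_tent_le_one _) (prod_tent_nonneg _) zero_le_one
      _ = 1 := one_mul 1

/-- the parametrisation of the units. -/
noncomputable def Weight_par (ζe : torsion E × (Fin (rank E) → ℤ)) : (𝓞 E)ˣ :=
  (ζe.1 : (𝓞 E)ˣ) * ∏ i, fundSystem E i ^ ζe.2 i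

theorem Weight_par_bijective : Function.Bijective (Weight_par E) := by
  rw [Function.bijective_iff_existsUnique]
  intro u
  obtain ⟨ζe, h1, h2⟩ := exist_unique_eq_mul_prod E u
  exact ⟨ζe, h1.symm, fun y hy => h2 y hy.symm⟩

theorem Weight_wgt_par (x : mixedSpace E) (hx : mixedEmbedding.norm x ≠ 0)
    (ζe : torsion E × (Fin (rank E) → ℤ)) :
    wgt E (Weight_par E ζe • x) = (torsionOrder E : ℝ)⁻¹ * ∏ i, tent (tco E x i + ζe.2 i) := by
  rw [wgt, if_neg (by rw [norm_unit_smul]; exact hx)]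
  congr 1
  refine Finset.prod_congr rfl fun i _ => ?_
  rw [Weight_par, tco_unit_smul E x hx ζe.1 ζe.2 i]


theorem Weight_hasSum_abstract {α β : Type*} [Finite α] (c : ℝ) (hc : 0 ≤ c)
    (hcard : (Nat.card α : ℝ) * c = 1) (g : β → ℝ) (hg0 : ∀ b, 0 ≤ g b) (hg : HasSum g 1) :
    HasSum (fun p : α × β => c * g p.2) 1 := by
  have : Fintype α := Fintype.ofFinite _
  have h1 : HasSum (fun _ : α => c) 1 := by
    have h := hasSum_fintype (fun _ : α => c)
    rwa [Finset.sum_const, Finset.card_univ, nsmul_eq_mul, ← Nat.card_eq_fintype_card, hcard] at h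
  have h3 := h1.mul hg (Summable.mul_of_nonneg h1.summable hg.summable (fun _ => hc) hg0)
  rwa [one_mul] at h3

/-- (task CH-A-WgtSum) PROOF. The map `torsion E × (Fin r → ℤ) → (𝓞 E)ˣ`, `(ζ,e) ↦ ζ ∏ ε_j^(e_j)` is
a bijection (`exist_unique_eq_mul_prod`); `N(u • x) = N x ≠ 0` (`norm_unit_smul`); by
`tco_unit_smul` the term at `(ζ,e)` is `(torsionOrder)⁻¹ ∏ tent (tco x i + e i)`;
`hasSum_prod_tent`, then sum over the finite set `torsion E` of cardinality `torsionOrder E`
(`HasSum.prod_fiberwise` / `hasSum_fintype`). -/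
theorem wgt_hasSum (x : mixedSpace E) (hx : mixedEmbedding.norm x ≠ 0) :
    HasSum (fun u : (𝓞 E)ˣ => wgt E (u • x)) 1 := by
  rw [← (Equiv.ofBijective (Weight_par E) (Weight_par_bijective E)).hasSum_iff]
  have h0 : (torsionOrder E : ℝ) ≠ 0 := Nat.cast_ne_zero.2 (torsionOrder_ne_zero E)
  have h3 := Weight_hasSum_abstract (α := torsion E) (torsionOrder E : ℝ)⁻¹
    (inv_nonneg.2 (Nat.cast_nonneg _)) (mul_inv_cancel₀ h0) _
    (fun e => prod_tent_nonneg _) (hasSum_prod_tent (tco E x))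
  refine h3.congr_fun ?_
  intro ζe
  exact Weight_wgt_par E x hx ζe

/-- (task CH-A-WgtSupp) PROOF. `wgt x ≠ 0` gives `N x ≠ 0` and `|tco x i| < 1` for all `i`
(`abs_lt_one_of_tent_ne_zero`), so by `exists_tco_bound` `|log|x|_v - L| ≤ R` for all `v`
(`L = log N x / n`), hence `|x|_v ≥ exp(-2R) |x|_{v'}` for all `v, v'`, and
`‖x‖ = sup_v |x|_v` (`norm_eq_sup'_normAtPlace`).  `c = exp(-2R)`. -/
theorem wgt_supp : ∃ c : ℝ, 0 < c ∧ ∀ x : mixedSpace E, wgt E x ≠ 0 →
    ∀ v : InfinitePlace E, c * ‖x‖ ≤ normAtPlace v x := by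
  obtain ⟨R, hR⟩ := exists_tco_bound E
  refine ⟨Real.exp (-(2 * R)), Real.exp_pos _, fun x hx v => ?_⟩
  have hN : mixedEmbedding.norm x ≠ 0 := by
    intro h
    exact hx (by simp [wgt, h])
  have hprod : ∏ i, tent (tco E x i) ≠ 0 := by
    intro h
    exact hx (by simp [wgt, h])
  have htco : ∀ i, |tco E x i| ≤ 1 := fun i =>
    (abs_lt_one_of_tent_ne_zero (Finset.prod_ne_zero_iff.mp hprod i (Finset.mem_univ i))).le
  have hb := hR x hN htco
  have hpos : ∀ w : InfinitePlace E, 0 < normAtPlace w x := fun w =>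
    lt_of_le_of_ne (normAtPlace_nonneg w x) (Ne.symm (mixedEmbedding.norm_ne_zero_iff.mp hN w))
  rw [norm_eq_sup'_normAtPlace]
  obtain ⟨w, -, hw⟩ := Finset.exists_mem_eq_sup' Finset.univ_nonempty
    (fun w : InfinitePlace E => normAtPlace w x)
  rw [hw]
  have h1 := abs_le.mp (hb v)
  have h2 := abs_le.mp (hb w)
  have h3 : -(2 * R) + Real.log (normAtPlace w x) ≤ Real.log (normAtPlace v x) := by
    linarith [h1.1, h2.2]
  calc Real.exp (-(2 * R)) * normAtPlace w x
      = Real.exp (-(2 * R) + Real.log (normAtPlace w x)) := by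
        rw [Real.exp_add, Real.exp_log (hpos w)]
    _ ≤ Real.exp (Real.log (normAtPlace v x)) := Real.exp_le_exp.mpr h3
    _ = normAtPlace v x := Real.exp_log (hpos v)

theorem Weight_normAtPlace_le_norm (v : InfinitePlace E) (z : mixedSpace E) :
    normAtPlace v z ≤ ‖z‖ := by
  rw [norm_eq_sup'_normAtPlace]
  exact Finset.le_sup' (fun w : InfinitePlace E => normAtPlace w z) (Finset.mem_univ v)

theorem Weight_abs_normAtPlace_sub_le (v : InfinitePlace E) (x y : mixedSpace E) :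
    |normAtPlace v x - normAtPlace v y| ≤ ‖x - y‖ := by
  have h1 : normAtPlace v x ≤ normAtPlace v (x - y) + normAtPlace v y := by
    have := normAtPlace_add_le v (x - y) y
    rwa [sub_add_cancel] at this
  have h2 : normAtPlace v y ≤ normAtPlace v (x - y) + normAtPlace v x := by
    have := normAtPlace_add_le v (-(x - y)) x
    rw [normAtPlace_neg] at this
    have h3 : -(x - y) + x = y := by abel
    rwa [h3] at this
  have h4 := Weight_normAtPlace_le_norm E v (x - y)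
  rw [abs_le]
  constructor <;> linarith

theorem Weight_abs_log_sub_le {a b : ℝ} (ha : 0 < a) (hb : a / 2 ≤ b) :
    |Real.log a - Real.log b| ≤ 2 * |a - b| / a := by
  have hb0 : 0 < b := by linarith
  have h1 : Real.log a - Real.log b ≤ (a - b) / b := by
    rw [← Real.log_div ha.ne' hb0.ne']
    have := Real.log_le_sub_one_of_pos (div_pos ha hb0)
    have h2 : a / b - 1 = (a - b) / b := by field_simp
    linarith
  have h2 : Real.log b - Real.log a ≤ (b - a) / a := by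
    rw [← Real.log_div hb0.ne' ha.ne']
    have := Real.log_le_sub_one_of_pos (div_pos hb0 ha)
    have h2 : b / a - 1 = (b - a) / a := by field_simp
    linarith
  have h3 : (a - b) / b ≤ 2 * |a - b| / a := by
    calc (a - b) / b ≤ |a - b| / b := by gcongr; exact le_abs_self _
      _ ≤ |a - b| / (a / 2) := by gcongr
      _ = 2 * |a - b| / a := by field_simp
  have h4 : (b - a) / a ≤ 2 * |a - b| / a := by
    have h5 : b - a ≤ |a - b| := by rw [abs_sub_comm]; exact le_abs_self _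
    have h6 : b - a ≤ 2 * |a - b| := by linarith [abs_nonneg (a - b)]
    gcongr
  rw [abs_le]
  constructor <;> linarith

theorem Weight_abs_wgt_sub_le_one (x y : mixedSpace E) : |wgt E x - wgt E y| ≤ 1 := by
  rw [abs_le]
  constructor <;> linarith [wgt_nonneg E x, wgt_nonneg E y, wgt_le_one E x, wgt_le_one E y]

/-- case (a) of `wgt_lip`. -/
theorem Weight_lip_aux : ∃ C : ℝ, 0 ≤ C ∧ ∀ x y : mixedSpace E, wgt E x ≠ 0 →
    |wgt E x - wgt E y| * ‖x‖ ≤ C * ‖x - y‖ := by
  obtain ⟨c, hc, hsupp⟩ := wgt_supp E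
  obtain ⟨C₀, hC₀, hlip⟩ := exists_tco_lip E
  refine ⟨2 / c + rank E * C₀ * (2 / c), by positivity, fun x y hx => ?_⟩
  have hxy0 : 0 ≤ ‖x - y‖ := norm_nonneg _
  rcases le_or_gt (c / 2 * ‖x‖) ‖x - y‖ with h | h
  · have h1 : ‖x‖ ≤ 2 / c * ‖x - y‖ := by
      have : 2 / c * (c / 2 * ‖x‖) = ‖x‖ := by field_simp
      calc ‖x‖ = 2 / c * (c / 2 * ‖x‖) := this.symm
        _ ≤ 2 / c * ‖x - y‖ := by gcongr
    calc |wgt E x - wgt E y| * ‖x‖ ≤ 1 * ‖x‖ := by
          gcongr
          exact Weight_abs_wgt_sub_le_one E x y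
      _ = ‖x‖ := one_mul _
      _ ≤ 2 / c * ‖x - y‖ := h1
      _ ≤ (2 / c + rank E * C₀ * (2 / c)) * ‖x - y‖ := by
          gcongr
          have : 0 ≤ rank E * C₀ * (2 / c) := by positivity
          linarith
  · have hNx : mixedEmbedding.norm x ≠ 0 := by
      intro h0
      exact hx (by simp [wgt, h0])
    have hposx : ∀ w : InfinitePlace E, 0 < normAtPlace w x := fun w =>
      lt_of_le_of_ne (normAtPlace_nonneg w x) (Ne.symm (mixedEmbedding.norm_ne_zero_iff.mp hNx w))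
    have hxpos : 0 < ‖x‖ := by
      by_contra h0
      have h1 : ‖x‖ = 0 := le_antisymm (not_lt.mp h0) (norm_nonneg _)
      rw [h1, mul_zero] at h
      exact absurd h (not_lt.mpr hxy0)
    have hhalf : ∀ v : InfinitePlace E, normAtPlace v x / 2 ≤ normAtPlace v y := by
      intro v
      have h1 := abs_le.mp (Weight_abs_normAtPlace_sub_le E v x y)
      have h2 := hsupp x hx v
      nlinarith [h1.1, h1.2]
    have hNy : mixedEmbedding.norm y ≠ 0 := by
      rw [mixedEmbedding.norm_ne_zero_iff]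
      intro v
      have := hhalf v
      have := hposx v
      linarith
    set δ : ℝ := 2 / c * ‖x - y‖ / ‖x‖ with hδ
    have hlog : ∀ v : InfinitePlace E,
        |Real.log (normAtPlace v x) - Real.log (normAtPlace v y)| ≤ δ := by
      intro v
      refine (Weight_abs_log_sub_le (hposx v) (hhalf v)).trans ?_
      have h1 := Weight_abs_normAtPlace_sub_le E v x y
      have h2 := hsupp x hx v
      have h3 : 0 < c * ‖x‖ := by positivity
      calc 2 * |normAtPlace v x - normAtPlace v y| / normAtPlace v x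
          ≤ 2 * ‖x - y‖ / (c * ‖x‖) := by gcongr
        _ = δ := by rw [hδ]; field_simp
    have htco := hlip x y hNx hNy δ hlog
    have hprod : |∏ i, tent (tco E x i) - ∏ i, tent (tco E y i)| ≤ rank E * (C₀ * δ) := by
      refine (abs_prod_tent_sub_le _ _).trans ?_
      calc ∑ i, |tco E x i - tco E y i| ≤ ∑ _i : Fin (rank E), C₀ * δ :=
            Finset.sum_le_sum fun i _ => htco i
        _ = rank E * (C₀ * δ) := by simp
    have ht1 : (1 : ℝ) ≤ torsionOrder E := by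
      have : 0 < torsionOrder E := torsionOrder_pos E
      exact_mod_cast this
    have ht2 : (torsionOrder E : ℝ)⁻¹ ≤ 1 := inv_le_one_of_one_le₀ ht1
    have ht3 : (0 : ℝ) ≤ (torsionOrder E : ℝ)⁻¹ := by positivity
    have hw : |wgt E x - wgt E y| ≤ rank E * (C₀ * δ) := by
      have h1 : wgt E x - wgt E y =
          (torsionOrder E : ℝ)⁻¹ * (∏ i, tent (tco E x i) - ∏ i, tent (tco E y i)) := by
        simp only [wgt, if_neg hNx, if_neg hNy]
        ring
      rw [h1, abs_mul, abs_of_nonneg ht3]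
      calc (torsionOrder E : ℝ)⁻¹ * |∏ i, tent (tco E x i) - ∏ i, tent (tco E y i)|
          ≤ 1 * |∏ i, tent (tco E x i) - ∏ i, tent (tco E y i)| := by gcongr
        _ = |∏ i, tent (tco E x i) - ∏ i, tent (tco E y i)| := one_mul _
        _ ≤ _ := hprod
    calc |wgt E x - wgt E y| * ‖x‖ ≤ rank E * (C₀ * δ) * ‖x‖ := by gcongr
      _ = rank E * C₀ * (2 / c) * ‖x - y‖ := by rw [hδ]; field_simp
      _ ≤ (2 / c + rank E * C₀ * (2 / c)) * ‖x - y‖ := by
          gcongr
          have : 0 ≤ 2 / c := by positivity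
          linarith

/-- (task CH-A-WgtLip) PROOF. Let `c ≤ 1` be as in `wgt_supp`, `C₀` as in `exists_tco_lip`,
`r = rank E`.  If `wgt x = wgt y = 0`: trivial.
(a) `wgt x ≠ 0`.  If `‖x - y‖ ≥ (c/2) ‖x‖`: `|wgt x - wgt y| ≤ 1`, so `LHS ≤ ‖x‖ ≤ (2/c) ‖x-y‖`.
Otherwise `| |y|_v - |x|_v | ≤ ‖x - y‖ ≤ |x|_v / 2` for all `v`, so `N y ≠ 0` and
`|log|y|_v - log|x|_v| ≤ 2 ‖x-y‖/|x|_v ≤ (2/c) ‖x-y‖/‖x‖` (`|log(1+t)| ≤ 2|t|` for `|t| ≤ 1/2`), and
`|wgt x - wgt y| ≤ ∑_i |tco x i - tco y i| ≤ r C₀ (2/c) ‖x-y‖/‖x‖` (`abs_prod_tent_sub_le`).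
(b) `wgt x = 0`, `wgt y ≠ 0`: by (a) with the roles exchanged `|wgt x - wgt y| ‖y‖ ≤ C ‖x-y‖`; and
`‖x‖ ≤ ‖y‖ + ‖x-y‖`, `|wgt x - wgt y| ≤ 1`: `LHS ≤ (C+1) ‖x-y‖`. -/
theorem wgt_lip : ∃ C : ℝ, ∀ x y : mixedSpace E, |wgt E x - wgt E y| * ‖x‖ ≤ C * ‖x - y‖ := by
  obtain ⟨C, hC, h⟩ := Weight_lip_aux E
  refine ⟨C + 1, fun x y => ?_⟩
  have hxy0 : 0 ≤ ‖x - y‖ := norm_nonneg _
  by_cases hx : wgt E x = 0
  · by_cases hy : wgt E y = 0
    · rw [hx, hy, sub_self, abs_zero, zero_mul]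
      positivity
    · have h1 := h y x hy
      rw [abs_sub_comm, norm_sub_rev] at h1
      have h2 : ‖x‖ ≤ ‖y‖ + ‖x - y‖ := by
        have := norm_add_le y (x - y)
        rwa [add_sub_cancel] at this
      have h3 := Weight_abs_wgt_sub_le_one E x y
      have h4 : 0 ≤ |wgt E x - wgt E y| := abs_nonneg _
      calc |wgt E x - wgt E y| * ‖x‖ ≤ |wgt E x - wgt E y| * (‖y‖ + ‖x - y‖) := by gcongr
        _ = |wgt E x - wgt E y| * ‖y‖ + |wgt E x - wgt E y| * ‖x - y‖ := by ring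
        _ ≤ C * ‖x - y‖ + 1 * ‖x - y‖ := by gcongr
        _ = (C + 1) * ‖x - y‖ := by ring
  · calc |wgt E x - wgt E y| * ‖x‖ ≤ C * ‖x - y‖ := h x y hx
      _ ≤ (C + 1) * ‖x - y‖ := by gcongr; linarith

theorem isWeight_wgt : IsWeight E (wgt E) :=
  ⟨wgt_nonneg E, wgt_le_one E, wgt_hasSum E, wgt_supp E, wgt_lip E⟩

end Fermat.Agent.CH
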