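/-
Lib/Chebotarev, Part A: THEOREM A: `L(s, χ ∘ N)` has a limit at `s = 1+` if `χ ∘ N` is not trivial.
-/
import Fermat.Agent.Lib.Chebotarev.A.Weight
import Fermat.Agent.Lib.Chebotarev.A.Unfold
import Fermat.Agent.Lib.Chebotarev.A.Coset
import Fermat.Agent.Lib.Chebotarev.A.Classes

set_option autoImplicit false

namespace Fermat.Agent.CH

open NumberField Filter Topology
open scoped NumberField nonZeroDivisors Classical
open Fermat.Agent.S14.AN (nrm)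

variable (E : Type) [Field E] [NumberField E] {m : ℕ}

theorem absNorm_pos (I : (Ideal (𝓞 E))⁰) : 0 < Ideal.absNorm (I : Ideal (𝓞 E)) := by
  rw [Nat.pos_iff_ne_zero, Ne, Ideal.absNorm_eq_zero_iff]
  exact mem_nonZeroDivisors_iff_ne_zero.mp I.2

theorem continuous_nrm (I : (Ideal (𝓞 E))⁰) : Continuous fun s : ℝ => (nrm E s I : ℂ) := by
  have h0 : (0 : ℝ) < Ideal.absNorm (I : Ideal (𝓞 E)) := by exact_mod_cast absNorm_pos E I
  unfold nrm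
  exact Complex.continuous_ofReal.comp
    ((continuous_const.rpow continuous_neg) (fun _ => Or.inl h0.ne'))

theorem nrm_ne_zero (I : (Ideal (𝓞 E))⁰) (s : ℝ) : (nrm E s I : ℂ) ≠ 0 := by
  have h0 : (0 : ℝ) < Ideal.absNorm (I : Ideal (𝓞 E)) := by exact_mod_cast absNorm_pos E I
  unfold nrm
  exact_mod_cast (Real.rpow_pos_of_pos h0 _).ne'

theorem chiN_ne_zero (χ : DirichletCharacter ℂ m) (I : (Ideal (𝓞 E))⁰)
    (h : (Ideal.absNorm (I : Ideal (𝓞 E))).Coprime m) : chiN E χ I ≠ 0 := by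
  unfold chiN
  exact MulChar.apply_ne_zero_iff.mpr ((ZMod.isUnit_iff_coprime _ _).mpr h)

theorem isCoprime_of_absNorm (𝔟 : Ideal (𝓞 E)) (h : (Ideal.absNorm 𝔟).Coprime m) :
    IsCoprime 𝔟 (Ideal.span {(m : 𝓞 E)}) := by
  rw [Ideal.isCoprime_iff_exists]
  have h1 : IsCoprime ((Ideal.absNorm 𝔟 : ℕ) : ℤ) (m : ℤ) := Nat.isCoprime_iff_coprime.mpr h
  obtain ⟨u, v, huv⟩ := h1
  refine ⟨(u : 𝓞 E) * (Ideal.absNorm 𝔟 : 𝓞 E), 𝔟.mul_mem_left _ (Ideal.absNorm_mem 𝔟),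
    (v : 𝓞 E) * (m : 𝓞 E), Ideal.mul_mem_left _ _ (Ideal.mem_span_singleton_self _), ?_⟩
  have := congrArg (fun z : ℤ => (z : 𝓞 E)) huv
  push_cast at this
  exact this

/-- **THEOREM A.** -/
theorem hasLim_Lf [NeZero m] (χ : DirichletCharacter ℂ m) (𝔟 : (Ideal (𝓞 E))⁰)
    (hb : (Ideal.absNorm (𝔟 : Ideal (𝓞 E))).Coprime m) (hχ : chiN E χ 𝔟 ≠ 1) :
    HasLim (Lf E χ) := by
  have hw := isWeight_wgt E
  choose J hJ1 hJ2 using fun c : ClassGroup (𝓞 E) => exists_coprime_rep E (m := m) c⁻¹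
  have hN0 : ((Ideal.absNorm (𝔟 : Ideal (𝓞 E)) : ℕ) : ℂ) ≠ 0 := by
    exact_mod_cast (absNorm_pos E 𝔟).ne'
  set Nb : ℂ := ((Ideal.absNorm (𝔟 : Ideal (𝓞 E)) : ℕ) : ℂ) with hNb
  -- the factor
  have hg : Tendsto (fun s : ℝ => chiN E χ 𝔟 * (nrm E s 𝔟 : ℂ) - Nb⁻¹) (𝓝[>] 1)
      (𝓝 (chiN E χ 𝔟 * (nrm E 1 𝔟 : ℂ) - Nb⁻¹)) := by
    have : Continuous fun s : ℝ => chiN E χ 𝔟 * (nrm E s 𝔟 : ℂ) - Nb⁻¹ :=
      (continuous_const.mul (continuous_nrm E 𝔟)).sub continuous_const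
    exact (this.tendsto 1).mono_left nhdsWithin_le_nhds
  have hn1 : (nrm E 1 𝔟 : ℂ) = Nb⁻¹ := by
    unfold nrm
    rw [Real.rpow_neg_one]
    push_cast
    rfl
  have hb0 : chiN E χ 𝔟 * (nrm E 1 𝔟 : ℂ) - Nb⁻¹ ≠ 0 := by
    rw [hn1]
    intro h
    apply hχ
    have h2 : (chiN E χ 𝔟 - 1) * Nb⁻¹ = 0 := by rw [sub_mul, one_mul]; exact h
    rcases mul_eq_zero.mp h2 with h3 | h3
    · exact sub_eq_zero.mp h3
    · exact absurd h3 (inv_ne_zero hN0)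
  refine HasLim.of_mul hg hb0 ?_
  -- the key lemma in each class
  have key : ∀ c : ClassGroup (𝓞 E), HasLim fun s : ℝ =>
      -((chiN E χ (J c))⁻¹ * Nb⁻¹) * ((nrm E (-s) (J c) : ℂ) *
        (Psum E χ (wgt E) (J c : Ideal (𝓞 E)) s -
          Nb * Psum E χ (wgt E) ((𝔟 : Ideal (𝓞 E)) * (J c : Ideal (𝓞 E))) s)) := by
    intro c
    have h1 := hasLim_Psum_sub E hw χ (J c : Ideal (𝓞 E)) (𝔟 : Ideal (𝓞 E))
      (mem_nonZeroDivisors_iff_ne_zero.mp (J c).2) (mem_nonZeroDivisors_iff_ne_zero.mp 𝔟.2)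
      (isCoprime_of_absNorm E _ hb)
    have h2 : HasLim fun s : ℝ => (nrm E (-s) (J c) : ℂ) :=
      HasLim.of_continuousOn ((continuous_nrm E (J c)).comp continuous_neg).continuousOn
    have h3 : HasLim fun _ : ℝ => -((chiN E χ (J c))⁻¹ * Nb⁻¹) := ⟨_, tendsto_const_nhds⟩
    exact h3.mul (h2.mul h1)
  refine (HasLim.sum Finset.univ (fun c _ => key c)).congr ?_
  intro s hs hs2
  have e1 := sum_Lcl E χ 𝔟 hs
  have e2 := sum_Lcl E χ (1 : (Ideal (𝓞 E))⁰) hs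
  have h11 : chiN E χ (1 : (Ideal (𝓞 E))⁰) = 1 := by simp [chiN]
  have h12 : (nrm E s (1 : (Ideal (𝓞 E))⁰) : ℂ) = 1 := by simp [nrm]
  rw [h11, h12, one_mul, one_mul] at e2
  rw [sub_mul, ← e1, ← e2, Finset.mul_sum, ← Finset.sum_sub_distrib]
  refine Finset.sum_congr rfl fun c _ => ?_
  have f1 := Lcl_mul E χ c 𝔟 (J c) (hJ1 c) s
  have f2 := Lcl_mul E χ c 1 (J c) (hJ1 c) s
  rw [← Psum_eq_Lpr E hw χ _ hs] at f1 f2
  have hone : (((1 : (Ideal (𝓞 E))⁰) : Ideal (𝓞 E))) * (J c : Ideal (𝓞 E)) = (J c : Ideal (𝓞 E)) := by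
    simp
  rw [hone] at f2
  rw [← f1, ← f2]
  have hc0 := chiN_ne_zero E χ (J c) (hJ2 c)
  have hn0 := nrm_ne_zero E (J c) s
  have hnn : (nrm E (-s) (J c) : ℂ) * (nrm E s (J c) : ℂ) = 1 := by
    have h0 : (0 : ℝ) < Ideal.absNorm ((J c) : Ideal (𝓞 E)) := by exact_mod_cast absNorm_pos E (J c)
    unfold nrm
    rw [← Complex.ofReal_mul, ← Real.rpow_add h0]
    simp
  have hnn' : (nrm E (-s) (J c) : ℂ) = (nrm E s (J c) : ℂ)⁻¹ := eq_inv_of_mul_eq_one_left hnn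
  rw [hnn']
  field_simp
  ring

end Fermat.Agent.CH
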