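/-
Lib/Chebotarev, Part A: auxiliary material for the SHIFT LEMMA (task S48/CH-A-Shift).
-/
import Fermat.Agent.Lib.Chebotarev.A.Defs

set_option autoImplicit false

namespace Fermat.Agent.CH.ShiftAux

open NumberField NumberField.mixedEmbedding NumberField.InfinitePlace
open scoped NumberField nonZeroDivisors Classical

/-! ### elementary real inequalities -/

theorem rpow_neg_two {u : ℝ} (hu : 0 ≤ u) : u ^ (-2 : ℝ) = (u ^ 2)⁻¹ := by
  rw [Real.rpow_neg hu, Real.rpow_two]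

theorem abs_one_add_rpow_neg_sub_one_le {t s : ℝ} (ht : |t| ≤ 1 / 2) (hs1 : 1 ≤ s) (hs2 : s ≤ 2) :
    |(1 + t) ^ (-s) - 1| ≤ 8 * |t| := by
  obtain ⟨ht1, ht2⟩ := abs_le.1 ht
  have hu : 0 < 1 + t := by linarith
  have hu2 : 0 < (1 + t) ^ 2 := by positivity
  rcases le_total 0 t with h0 | h0
  · have h1 : (1 + t) ^ (-s) ≤ 1 := Real.rpow_le_one_of_one_le_of_nonpos (by linarith) (by linarith)
    have h2 : (1 + t) ^ (-2 : ℝ) ≤ (1 + t) ^ (-s) :=
      Real.rpow_le_rpow_of_exponent_le (by linarith) (by linarith)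
    rw [rpow_neg_two hu.le] at h2
    rw [abs_of_nonpos (by linarith), abs_of_nonneg h0]
    have h3 : 1 - 8 * t ≤ ((1 + t) ^ 2)⁻¹ := by
      rw [← one_div, le_div_iff₀ hu2]
      nlinarith [mul_nonneg h0 h0, mul_nonneg (mul_nonneg h0 h0) h0]
    linarith
  · have h1 : 1 ≤ (1 + t) ^ (-s) :=
      Real.one_le_rpow_of_pos_of_le_one_of_nonpos hu (by linarith) (by linarith)
    have h2 : (1 + t) ^ (-s) ≤ (1 + t) ^ (-2 : ℝ) :=
      Real.rpow_le_rpow_of_exponent_ge hu (by linarith) (by linarith)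
    rw [rpow_neg_two hu.le] at h2
    rw [abs_of_nonneg (by linarith), abs_of_nonpos h0]
    have h3 : ((1 + t) ^ 2)⁻¹ ≤ 1 - 8 * t := by
      rw [← one_div, div_le_iff₀ hu2]
      have h4 : 0 ≤ 6 + 15 * t + 8 * t ^ 2 := by nlinarith [sq_nonneg (t + 1 / 2)]
      nlinarith [mul_nonneg (neg_nonneg.2 h0) h4]
    linarith

/-- `(1+δ)^n - 1 ≤ (2^n - 1) δ` for `0 ≤ δ ≤ 1`. -/
theorem one_add_pow_sub_one_le {δ : ℝ} (h0 : 0 ≤ δ) (h1 : δ ≤ 1) (n : ℕ) :
    (1 + δ) ^ n - 1 ≤ (2 ^ n - 1) * δ := by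
  induction n with
  | zero => simp
  | succ n ih =>
    have h2 : (1 : ℝ) ≤ 2 ^ n := one_le_pow₀ (by norm_num)
    have h3 : (1 + δ) ^ (n + 1) - 1 = (1 + δ) * ((1 + δ) ^ n - 1) + δ := by ring
    have h4 : (1 + δ) * ((1 + δ) ^ n - 1) ≤ (1 + δ) * ((2 ^ n - 1) * δ) :=
      mul_le_mul_of_nonneg_left ih (by linarith)
    have h5 : (1 + δ) * ((2 ^ n - 1) * δ) ≤ 2 * ((2 ^ n - 1) * δ) :=
      mul_le_mul_of_nonneg_right (by linarith) (mul_nonneg (by linarith) h0)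
    rw [h3, pow_succ]
    linarith

theorem abs_mul_sub_one_le {δ r P B : ℝ} (hr : |r - 1| ≤ δ) (hP : |P - 1| ≤ B - 1) :
    |r * P - 1| ≤ (1 + δ) * B - 1 := by
  have h0 : 0 ≤ δ := (abs_nonneg _).trans hr
  have h1 : r * P - 1 = r * (P - 1) + (r - 1) := by ring
  have h2 : |r| ≤ 1 + δ := by
    have : r = 1 + (r - 1) := by ring
    calc |r| = |1 + (r - 1)| := by rw [← this]
      _ ≤ |1| + |r - 1| := abs_add_le _ _
      _ ≤ 1 + δ := by rw [abs_one]; linarith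
  calc |r * P - 1| = |r * (P - 1) + (r - 1)| := by rw [h1]
    _ ≤ |r * (P - 1)| + |r - 1| := abs_add_le _ _
    _ = |r| * |P - 1| + |r - 1| := by rw [abs_mul]
    _ ≤ (1 + δ) * (B - 1) + δ := by
        gcongr
    _ = (1 + δ) * B - 1 := by ring

theorem abs_pow_mul_sub_one_le {δ r P : ℝ} (hr : |r - 1| ≤ δ) (k : ℕ)
    (hP : |P - 1| ≤ (1 + δ) ^ k - 1) (m : ℕ) : |r ^ m * P - 1| ≤ (1 + δ) ^ (m + k) - 1 := by
  induction m with
  | zero => simpa using hP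
  | succ m ih =>
    have := abs_mul_sub_one_le hr ih
    rw [show r ^ (m + 1) * P = r * (r ^ m * P) by ring,
      show (1 + δ) ^ (m + 1 + k) = (1 + δ) * (1 + δ) ^ (m + k) by ring]
    exact this

theorem abs_prod_pow_sub_one_le {ι : Type*} (A : Finset ι) (r : ι → ℝ) (m : ι → ℕ) {δ : ℝ}
    (hr : ∀ i ∈ A, |r i - 1| ≤ δ) :
    |∏ i ∈ A, r i ^ m i - 1| ≤ (1 + δ) ^ (∑ i ∈ A, m i) - 1 := by
  induction A using Finset.induction_on with
  | empty => simp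
  | insert a A ha ih =>
    rw [Finset.prod_insert ha, Finset.sum_insert ha]
    exact abs_pow_mul_sub_one_le (hr a (Finset.mem_insert_self a A)) _
      (ih fun i hi => hr i (Finset.mem_insert_of_mem hi)) _

theorem core_real {κ wy wx P q CL d X c δ A Z : ℝ} (n : ℕ) (_hκ0 : 0 ≤ κ) (hκ1 : κ ≤ 1)
    (hX : 0 < X) (hc : 0 < c) (hd : 0 ≤ d) (hδ : δ = d / (c * X)) (hP0 : 0 ≤ P) (hPle : P ≤ A * Z)
    (hCL : 0 ≤ CL) (hwd : |wy - wx| ≤ CL * d / X) (hq5 : |q| ≤ 5)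
    (hq1 : |q - 1| ≤ 8 * (2 ^ n * δ)) (hwx1 : |wx| ≤ 1) :
    κ * |(wy - wx) * (P * q) + wx * (P * (q - 1))| ≤
      A * (5 * CL + 8 * 2 ^ n / c) * d * (Z / X) := by
  have hδ0 : 0 ≤ δ := by rw [hδ]; positivity
  calc κ * |(wy - wx) * (P * q) + wx * (P * (q - 1))|
      ≤ 1 * (|wy - wx| * (P * |q|) + |wx| * (P * |q - 1|)) := by
        gcongr
        refine (abs_add_le _ _).trans ?_
        rw [abs_mul, abs_mul, abs_mul, abs_mul, abs_of_nonneg hP0]
    _ ≤ 1 * ((CL * d / X) * (P * 5) + 1 * (P * (8 * (2 ^ n * δ)))) := by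
        gcongr
    _ = P * ((5 * CL + 8 * 2 ^ n / c) * d / X) := by
        rw [hδ]
        field_simp
    _ ≤ (A * Z) * ((5 * CL + 8 * 2 ^ n / c) * d / X) := by
        gcongr
    _ = A * (5 * CL + 8 * 2 ^ n / c) * d * (Z / X) := by
        ring

/-! ### the mixed space -/

variable (E : Type) [Field E] [NumberField E]

theorem normAtPlace_le_norm (v : InfinitePlace E) (x : mixedSpace E) : normAtPlace v x ≤ ‖x‖ := by
  rw [norm_eq_sup'_normAtPlace]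
  exact Finset.le_sup' (fun w => normAtPlace w x) (Finset.mem_univ v)

theorem abs_normAtPlace_sub_le (v : InfinitePlace E) (x y : mixedSpace E) :
    |normAtPlace v y - normAtPlace v x| ≤ ‖y - x‖ := by
  have h1 : normAtPlace v y ≤ normAtPlace v (y - x) + normAtPlace v x := by
    have := normAtPlace_add_le v (y - x) x
    rwa [sub_add_cancel] at this
  have h2 : normAtPlace v x ≤ normAtPlace v (y - x) + normAtPlace v y := by
    have := normAtPlace_add_le v (-(y - x)) y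
    rwa [normAtPlace_neg, neg_sub, sub_add_cancel] at this
  have h3 := normAtPlace_le_norm E v (y - x)
  rw [abs_le]
  constructor <;> linarith

theorem norm_ge_of_normAtPlace_ge {c : ℝ} (hc : 0 ≤ c) (x : mixedSpace E)
    (h : ∀ v : InfinitePlace E, c ≤ normAtPlace v x) :
    c ^ Module.finrank ℚ E ≤ mixedEmbedding.norm x := by
  rw [mixedEmbedding.norm_apply, ← sum_mult_eq, ← Finset.prod_pow_eq_pow_sum]
  exact Finset.prod_le_prod (fun _ _ => pow_nonneg hc _) fun v _ => pow_le_pow_left₀ hc (h v) _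

theorem norm_pos_of_normAtPlace_pos (x : mixedSpace E)
    (h : ∀ v : InfinitePlace E, 0 < normAtPlace v x) : 0 < mixedEmbedding.norm x := by
  rw [mixedEmbedding.norm_apply]
  exact Finset.prod_pos fun v _ => pow_pos (h v) _

theorem abs_norm_div_sub_one_le (x y : mixedSpace E) (δ : ℝ) (hδ : δ ≤ 1)
    (hx : ∀ v : InfinitePlace E, 0 < normAtPlace v x)
    (h : ∀ v : InfinitePlace E, ‖y - x‖ ≤ δ * normAtPlace v x) :
    |mixedEmbedding.norm y / mixedEmbedding.norm x - 1| ≤ 2 ^ Module.finrank ℚ E * δ := by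
  obtain ⟨v₀⟩ : Nonempty (InfinitePlace E) := inferInstance
  have hδ0 : 0 ≤ δ := by
    by_contra hneg
    rw [not_le] at hneg
    have := (norm_nonneg (y - x)).trans (h v₀)
    nlinarith [hx v₀]
  have h1 : mixedEmbedding.norm y / mixedEmbedding.norm x =
      ∏ v : InfinitePlace E, (normAtPlace v y / normAtPlace v x) ^ mult v := by
    rw [mixedEmbedding.norm_apply, mixedEmbedding.norm_apply, ← Finset.prod_div_distrib]
    exact Finset.prod_congr rfl fun v _ => (div_pow _ _ _).symm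
  have h2 : ∀ v ∈ (Finset.univ : Finset (InfinitePlace E)),
      |normAtPlace v y / normAtPlace v x - 1| ≤ δ := by
    intro v _
    have h3 : normAtPlace v y / normAtPlace v x - 1 =
        (normAtPlace v y - normAtPlace v x) / normAtPlace v x := by
      field_simp [(hx v).ne']
    rw [h3, abs_div, abs_of_pos (hx v), div_le_iff₀ (hx v)]
    exact (abs_normAtPlace_sub_le E v x y).trans (h v)
  have h4 := abs_prod_pow_sub_one_le Finset.univ
    (fun v : InfinitePlace E => normAtPlace v y / normAtPlace v x) (fun v => mult v) h2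
  rw [sum_mult_eq] at h4
  rw [h1]
  refine h4.trans ((one_add_pow_sub_one_le hδ0 hδ _).trans ?_)
  nlinarith

theorem sgnChar_eq_of_close (ε : ℂ) (x y : mixedSpace E)
    (h : ∀ v : InfinitePlace E, ‖y - x‖ < normAtPlace v x) : sgnChar E ε y = sgnChar E ε x := by
  have h1 : ∀ v : {v : InfinitePlace E // IsReal v}, 0 < y.1 v / x.1 v ∧ x.1 v ≠ 0 := by
    intro v
    have h2 : |y.1 v - x.1 v| < |x.1 v| := by
      have h3 := normAtPlace_le_norm E v.1 (y - x)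
      rw [normAtPlace_apply_of_isReal v.2, Real.norm_eq_abs] at h3
      have h4 := h v.1
      rw [normAtPlace_apply_of_isReal v.2, Real.norm_eq_abs] at h4
      exact lt_of_le_of_lt h3 h4
    have hx0 : x.1 v ≠ 0 := by
      intro h0
      rw [h0, abs_zero] at h2
      exact absurd h2 (not_lt.2 (abs_nonneg _))
    refine ⟨?_, hx0⟩
    have h5 : |(y.1 v - x.1 v) / x.1 v| < 1 := by
      rw [abs_div, div_lt_one (abs_pos.2 hx0)]
      exact h2
    have h6 : y.1 v / x.1 v = 1 + (y.1 v - x.1 v) / x.1 v := by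
      field_simp
      ring
    rw [h6]
    linarith [(abs_lt.1 h5).1]
  have h7 : ∏ v : {v : InfinitePlace E // IsReal v}, y.1 v =
      (∏ v : {v : InfinitePlace E // IsReal v}, x.1 v) *
        ∏ v : {v : InfinitePlace E // IsReal v}, y.1 v / x.1 v := by
    rw [← Finset.prod_mul_distrib]
    exact Finset.prod_congr rfl fun v _ => (mul_div_cancel₀ _ (h1 v).2).symm
  have h8 : 0 < ∏ v : {v : InfinitePlace E // IsReal v}, y.1 v / x.1 v :=
    Finset.prod_pos fun v _ => (h1 v).1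
  unfold sgnChar
  rw [h7]
  simp only [mul_pos_iff_of_pos_right h8]

theorem norm_sgnChar_le (ε : ℂ) (hε : ‖ε‖ ≤ 1) (x : mixedSpace E) : ‖sgnChar E ε x‖ ≤ 1 := by
  unfold sgnChar
  split_ifs
  · simp
  · exact hε

/-- `N x ^ (-s) ≤ A ‖x‖ ^ (-n)`. -/
theorem norm_rpow_neg_le {c : ℝ} (hc : 0 < c) (x : mixedSpace E) (hx1 : 1 ≤ ‖x‖)
    (h : ∀ v : InfinitePlace E, c * ‖x‖ ≤ normAtPlace v x) {s : ℝ} (hs1 : 1 ≤ s) (hs2 : s ≤ 2) :
    mixedEmbedding.norm x ^ (-s) ≤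
      (1 + (c ^ Module.finrank ℚ E) ^ (-2 : ℝ)) * ‖x‖ ^ (-(Module.finrank ℚ E : ℝ)) := by
  set n := Module.finrank ℚ E with hn
  have hx0 : 0 < ‖x‖ := by linarith
  have h1 : (c * ‖x‖) ^ n ≤ mixedEmbedding.norm x :=
    norm_ge_of_normAtPlace_ge E (by positivity) x h
  have h2 : mixedEmbedding.norm x ^ (-s) ≤ ((c * ‖x‖) ^ n) ^ (-s) :=
    Real.rpow_le_rpow_of_nonpos (by positivity) h1 (by linarith)
  have h3 : ((c * ‖x‖) ^ n) ^ (-s) = (c ^ n) ^ (-s) * (‖x‖ ^ n) ^ (-s) := by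
    rw [mul_pow, Real.mul_rpow (by positivity) (by positivity)]
  have hcn : 0 < c ^ n := by positivity
  have h4 : (c ^ n) ^ (-s) ≤ 1 + (c ^ n) ^ (-2 : ℝ) := by
    rcases le_total 1 (c ^ n) with h5 | h5
    · have h6 := Real.rpow_le_one_of_one_le_of_nonpos h5 (show -s ≤ 0 by linarith)
      have h7 := Real.rpow_nonneg hcn.le (-2 : ℝ)
      linarith
    · have h6 := Real.rpow_le_rpow_of_exponent_ge hcn h5 (show (-2 : ℝ) ≤ -s by linarith)
      linarith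
  have h6 : (‖x‖ ^ n) ^ (-s) ≤ ‖x‖ ^ (-(n : ℝ)) := by
    have h7 : (1 : ℝ) ≤ ‖x‖ ^ n := one_le_pow₀ hx1
    have h8 := Real.rpow_le_rpow_of_exponent_le h7 (show -s ≤ (-1 : ℝ) by linarith)
    have h9 : (‖x‖ ^ n) ^ (-1 : ℝ) = ‖x‖ ^ (-(n : ℝ)) := by
      rw [← Real.rpow_natCast, ← Real.rpow_mul hx0.le]
      ring_nf
    rwa [h9] at h8
  have h10 : 0 ≤ (c ^ n) ^ (-2 : ℝ) := Real.rpow_nonneg hcn.le _
  calc mixedEmbedding.norm x ^ (-s) ≤ ((c * ‖x‖) ^ n) ^ (-s) := h2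
    _ = (c ^ n) ^ (-s) * (‖x‖ ^ n) ^ (-s) := h3
    _ ≤ (1 + (c ^ n) ^ (-2 : ℝ)) * ‖x‖ ^ (-(n : ℝ)) :=
      mul_le_mul h4 h6 (Real.rpow_nonneg (by positivity) _) (by linarith)

theorem core {w : mixedSpace E → ℝ} (hw : IsWeight E w) (ε : ℂ) (hε : ‖ε‖ ≤ 1) :
    ∃ K c : ℝ, 0 ≤ K ∧ 0 < c ∧ ∀ x y : mixedSpace E, w x ≠ 0 → 1 ≤ ‖x‖ → ‖y - x‖ ≤ c * ‖x‖ →
      ∀ s : ℝ, 1 ≤ s → s ≤ 2 →
        ‖hfun E w ε s y - hfun E w ε s x‖ ≤
          K * ‖y - x‖ * ‖x‖ ^ (-(Module.finrank ℚ E : ℝ) - 1) := by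
  obtain ⟨c, hc, hsupp⟩ := hw.supp
  obtain ⟨CL, hlip⟩ := hw.lip
  set n := Module.finrank ℚ E with hn
  have hcn : 0 ≤ (c ^ n) ^ (-2 : ℝ) := Real.rpow_nonneg (by positivity) _
  set A : ℝ := 1 + (c ^ n) ^ (-2 : ℝ) with hA
  have hA0 : 0 ≤ A := by linarith
  refine ⟨A * (5 * |CL| + 8 * 2 ^ n / c), c / 2 ^ (n + 1), by positivity, by positivity, ?_⟩
  intro x y hwx hx1 hyx s hs1 hs2
  have hx0 : 0 < ‖x‖ := by linarith
  have hcx : 0 < c * ‖x‖ := by positivity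
  set δ : ℝ := ‖y - x‖ / (c * ‖x‖) with hδ
  have hδ0 : 0 ≤ δ := by positivity
  have hδle : 2 ^ n * δ ≤ 1 / 2 := by
    rw [hδ, ← mul_div_assoc, div_le_iff₀ hcx]
    have h1 : c / 2 ^ (n + 1) * ‖x‖ = (c * ‖x‖) / 2 ^ (n + 1) := by ring
    rw [h1, le_div_iff₀ (by positivity), pow_succ] at hyx
    linarith
  have hδ1 : δ ≤ 1 / 2 := by
    have h1 : (1 : ℝ) ≤ 2 ^ n := one_le_pow₀ (by norm_num)
    nlinarith
  have hpl : ∀ u : InfinitePlace E, c * ‖x‖ ≤ normAtPlace u x := hsupp x hwx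
  have hpos : ∀ u : InfinitePlace E, 0 < normAtPlace u x := fun u => hcx.trans_le (hpl u)
  have hyxδ : ‖y - x‖ = δ * (c * ‖x‖) := by
    rw [hδ]
    field_simp
  have hclose : ∀ u : InfinitePlace E, ‖y - x‖ ≤ δ * normAtPlace u x := fun u => by
    rw [hyxδ]
    exact mul_le_mul_of_nonneg_left (hpl u) hδ0
  have hκ : sgnChar E ε y = sgnChar E ε x := sgnChar_eq_of_close E ε x y fun u => by
    refine (hclose u).trans_lt ?_
    nlinarith [hpos u]
  set t : ℝ := mixedEmbedding.norm y / mixedEmbedding.norm x - 1 with ht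
  have htle : |t| ≤ 2 ^ n * δ := abs_norm_div_sub_one_le E x y δ (by linarith) hpos hclose
  have hNx : 0 < mixedEmbedding.norm x := norm_pos_of_normAtPlace_pos E x hpos
  have hNy : mixedEmbedding.norm y = mixedEmbedding.norm x * (1 + t) := by
    rw [ht]
    field_simp
    ring
  have ht1 : 0 ≤ 1 + t := by linarith [(abs_le.1 (htle.trans hδle)).1]
  have hNys : mixedEmbedding.norm y ^ (-s) = mixedEmbedding.norm x ^ (-s) * (1 + t) ^ (-s) := by
    rw [hNy, Real.mul_rpow hNx.le ht1]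
  have hq : |(1 + t) ^ (-s) - 1| ≤ 8 * |t| :=
    abs_one_add_rpow_neg_sub_one_le (htle.trans hδle) hs1 hs2
  have hPle : mixedEmbedding.norm x ^ (-s) ≤ A * ‖x‖ ^ (-(n : ℝ)) :=
    norm_rpow_neg_le E hc x hx1 hpl hs1 hs2
  have hP0 : 0 ≤ mixedEmbedding.norm x ^ (-s) := Real.rpow_nonneg hNx.le _
  have hfx : hfun E w ε s x =
      (w x : ℂ) * sgnChar E ε x * ((mixedEmbedding.norm x ^ (-s) : ℝ) : ℂ) := rfl
  have hfy : hfun E w ε s y = (w y : ℂ) * sgnChar E ε x *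
      ((mixedEmbedding.norm x ^ (-s) * (1 + t) ^ (-s) : ℝ) : ℂ) := by
    unfold hfun
    rw [hκ, hNys]
  rw [hfx, hfy]
  generalize mixedEmbedding.norm x ^ (-s) = P at hPle hP0
  generalize (1 + t) ^ (-s) = q at hq
  have hdecomp : (w y : ℂ) * sgnChar E ε x * ((P * q : ℝ) : ℂ) -
      (w x : ℂ) * sgnChar E ε x * ((P : ℝ) : ℂ) =
      sgnChar E ε x * (((w y - w x) * (P * q) + w x * (P * (q - 1)) : ℝ) : ℂ) := by
    push_cast
    ring
  have hwd : |w y - w x| ≤ |CL| * ‖y - x‖ / ‖x‖ := by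
    rw [le_div_iff₀ hx0]
    have h1 := hlip x y
    rw [abs_sub_comm, norm_sub_rev] at h1
    exact h1.trans (mul_le_mul_of_nonneg_right (le_abs_self _) (norm_nonneg _))
  have hq5 : |q| ≤ 5 := by
    have h1 : |q| ≤ |q - 1| + 1 := by
      calc |q| = |(q - 1) + 1| := by ring_nf
        _ ≤ |q - 1| + |1| := abs_add_le _ _
        _ = |q - 1| + 1 := by rw [abs_one]
    have h8 : 8 * |t| ≤ 4 := by linarith [htle.trans hδle]
    linarith
  have hq1 : |q - 1| ≤ 8 * (2 ^ n * δ) := hq.trans (by linarith)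
  have hκ1 : ‖sgnChar E ε x‖ ≤ 1 := norm_sgnChar_le E ε hε x
  have hwx1 : |w x| ≤ 1 := by
    rw [abs_of_nonneg (hw.nonneg x)]
    exact hw.le_one x
  rw [hdecomp, norm_mul, Complex.norm_real, Real.norm_eq_abs]
  rw [Real.rpow_sub hx0, Real.rpow_one]
  exact core_real n (norm_nonneg _) hκ1 hx0 hc (norm_nonneg _) hδ hP0 hPle (abs_nonneg _) hwd hq5
    hq1 hwx1

theorem shift_bound {w : mixedSpace E → ℝ} (hw : IsWeight E w) (ε : ℂ) (hε : ‖ε‖ ≤ 1)
    (v : mixedSpace E) :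
    ∃ C R : ℝ, 0 ≤ C ∧ ∀ x : mixedSpace E, R ≤ ‖x‖ → ∀ s : ℝ, 1 ≤ s → s ≤ 2 →
      ‖hfun E w ε s (x + v) - hfun E w ε s x‖ ≤ C * ‖x‖ ^ (-(Module.finrank ℚ E : ℝ) - 1) := by
  obtain ⟨K, c, hK, hc, hcore⟩ := core E hw ε hε
  set n := Module.finrank ℚ E with hn
  have hpow : (1 : ℝ) ≤ 2 ^ ((n : ℝ) + 1) := Real.one_le_rpow (by norm_num) (by positivity)
  refine ⟨K * ‖v‖ * 2 ^ ((n : ℝ) + 1), 2 + 2 * ‖v‖ + 2 * ‖v‖ / c, by positivity, ?_⟩
  intro x hx s hs1 hs2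
  have hv0 := norm_nonneg v
  have hvc : 0 ≤ 2 * ‖v‖ / c := by positivity
  have hx2 : 2 ≤ ‖x‖ := by linarith
  have hx0 : 0 < ‖x‖ := by linarith
  have hxv : 2 * ‖v‖ ≤ ‖x‖ := by linarith
  have hxc : 2 * ‖v‖ ≤ c * ‖x‖ := by
    have h1 : 2 * ‖v‖ / c ≤ ‖x‖ := by linarith
    rw [div_le_iff₀ hc] at h1
    linarith
  have hxp : 0 ≤ ‖x‖ ^ (-(n : ℝ) - 1) := Real.rpow_nonneg hx0.le _
  by_cases hwx : w x = 0
  · by_cases hwy : w (x + v) = 0
    · have h1 : hfun E w ε s (x + v) = 0 := by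
        unfold hfun
        rw [hwy]
        simp
      have h2 : hfun E w ε s x = 0 := by
        unfold hfun
        rw [hwx]
        simp
      rw [h1, h2, sub_zero, norm_zero]
      positivity
    · have hy : ‖x‖ / 2 ≤ ‖x + v‖ := by
        have h1 := norm_sub_norm_le x (-v)
        rw [sub_neg_eq_add, norm_neg] at h1
        linarith
      have hy1 : 1 ≤ ‖x + v‖ := by linarith
      have hd : ‖x - (x + v)‖ = ‖v‖ := by rw [sub_add_cancel_left, norm_neg]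
      have h3 := hcore (x + v) x hwy hy1 (by rw [hd]; nlinarith) s hs1 hs2
      rw [hd] at h3
      rw [norm_sub_rev]
      refine h3.trans ?_
      have hn0 : (0 : ℝ) ≤ n := Nat.cast_nonneg n
      have h4 : ‖x + v‖ ^ (-(n : ℝ) - 1) ≤ (‖x‖ / 2) ^ (-(n : ℝ) - 1) :=
        Real.rpow_le_rpow_of_nonpos (by positivity) hy (by linarith)
      have h5 : (‖x‖ / 2) ^ (-(n : ℝ) - 1) = 2 ^ ((n : ℝ) + 1) * ‖x‖ ^ (-(n : ℝ) - 1) := by
        rw [Real.div_rpow hx0.le (by norm_num), div_eq_mul_inv, ← Real.rpow_neg (by norm_num),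
          mul_comm]
        congr 2
        ring
      rw [h5] at h4
      calc K * ‖v‖ * ‖x + v‖ ^ (-(n : ℝ) - 1)
          ≤ K * ‖v‖ * (2 ^ ((n : ℝ) + 1) * ‖x‖ ^ (-(n : ℝ) - 1)) :=
            mul_le_mul_of_nonneg_left h4 (mul_nonneg hK hv0)
        _ = K * ‖v‖ * 2 ^ ((n : ℝ) + 1) * ‖x‖ ^ (-(n : ℝ) - 1) := by ring
  · have hd : ‖x + v - x‖ = ‖v‖ := by rw [add_sub_cancel_left]
    have h3 := hcore x (x + v) hwx (by linarith) (by rw [hd]; linarith) s hs1 hs2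
    rw [hd] at h3
    refine h3.trans ?_
    have h6 : K * ‖v‖ * 1 ≤ K * ‖v‖ * 2 ^ ((n : ℝ) + 1) :=
      mul_le_mul_of_nonneg_left hpow (mul_nonneg hK hv0)
    rw [mul_one] at h6
    exact mul_le_mul_of_nonneg_right h6 hxp

end Fermat.Agent.CH.ShiftAux
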